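import Fermat.Agent.LevelRaising.AwaySL2

/-!
# Generators of `Γ₀(2)` in `SL(2, ℤ[1/q])`

`{g ∈ SL(2, ℤ[1/q]) | 2 ∣ g 1 0}` is generated by `upr s`, `lwr (2 t)` and `-1`; the character
of order three of `SL(2, ℤ/3)`.
-/

namespace Fermat.Agent.LevelRaising

open scoped MatrixGroups

variable {q : ℕ}

/-- the group generated by `upr s`, `lwr (2 t)` and `-1` -/
def genSub (q : ℕ) : Subgroup SL(2, Zq q) :=
  Subgroup.closure (Set.range (upr (R := Zq q)) ∪ Set.range (fun t : Zq q => lwr (2 * t)) ∪ {-1})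

theorem upr_mem_genSub (s : Zq q) : upr s ∈ genSub q :=
  Subgroup.subset_closure (Or.inl (Or.inl ⟨s, rfl⟩))

theorem lwr_mem_genSub (t : Zq q) : lwr (2 * t) ∈ genSub q :=
  Subgroup.subset_closure (Or.inl (Or.inr ⟨t, rfl⟩))

theorem two_dvd_sub_one_of_isUnit (hq : q.Prime) {v : Zq q} (hv : IsUnit v) :
    (2 : Zq q) ∣ v - 1 := by
  by_cases hq2 : q = 2
  · subst hq2
    have : IsUnit ((2 : ℕ) : Zq 2) := isUnit_natCast_self
    exact (by simpa using this : IsUnit (2 : Zq 2)).dvd
  · have h : q.Coprime 2 := (Nat.coprime_primes hq Nat.prime_two).mpr hq2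
    have h1 : ∀ x : ZMod 2, IsUnit x → x = 1 := by
      intro x hx
      fin_cases x
      · exact absurd hx not_isUnit_zero
      · rfl
    have := (red_eq_zero_iff (h := h) (v - 1)).mp
      (by rw [map_sub, h1 _ (hv.map (red h)), map_one, sub_self])
    simpa using this

theorem dia_mem_genSub (hq : q.Prime) (u : (Zq q)ˣ) : dia u ∈ genSub q := by
  obtain ⟨y, hy⟩ := two_dvd_sub_one_of_isUnit hq u.isUnit
  set w := ((u⁻¹ : (Zq q)ˣ) : Zq q)
  have hw : (u : Zq q) * w = 1 := u.mul_inv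
  have e : dia u = lwr (2 * (-(y * w))) * (upr 1 * lwr (2 * y)) * upr (-w) := by
    apply sl_ext <;> simp [mul_apply00, mul_apply01, mul_apply10, mul_apply11]
    · linear_combination hy
    · linear_combination hw - w * hy
    · linear_combination 2 * y * hw - 2 * y * w * hy
    · linear_combination (1 - 2 * y * w) * hw - w * (1 - 2 * y * w) * hy
  rw [e]
  exact mul_mem (mul_mem (lwr_mem_genSub _) (mul_mem (upr_mem_genSub _) (lwr_mem_genSub _)))
    (upr_mem_genSub _)

theorem mem_genSub_of_entry_zero (hq : q.Prime) {g : SL(2, Zq q)} (h : g 1 0 = 0) :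
    g ∈ genSub q := by
  have hd := det_eq g
  rw [h, mul_zero, sub_zero] at hd
  set u : (Zq q)ˣ := ⟨g 0 0, g 1 1, hd, by rw [mul_comm]; exact hd⟩
  have e : g = dia u * upr (g 1 1 * g 0 1) := by
    apply sl_ext <;> simp [mul_apply00, mul_apply01, mul_apply10, mul_apply11, u, h]
    linear_combination -(g 0 1) * hd
  rw [e]
  exact mul_mem (dia_mem_genSub hq u) (upr_mem_genSub _)

theorem mem_genSub_aux (hq : q.Prime) : ∀ (n : ℕ) (g : SL(2, Zq q)) (α γ : ℤ)
    (u₁ u₂ : (Zq q)ˣ), g 0 0 = u₁ * α → g 1 0 = u₂ * γ → (2 : Zq q) ∣ g 1 0 →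
    α.natAbs + γ.natAbs ≤ n → g ∈ genSub q := by
  intro n
  induction n using Nat.strong_induction_on with
  | _ n ih =>
    intro g α γ u₁ u₂ h₁ h₂ h2 hn
    -- A zero entry ends the Euclidean algorithm.
    by_cases hγ : γ = 0
    · exact mem_genSub_of_entry_zero hq (by rw [h₂, hγ, Int.cast_zero, mul_zero])
    by_cases hα : α = 0
    · have hd := det_eq g
      rw [h₁, hα, Int.cast_zero, mul_zero, zero_mul, zero_sub] at hd
      obtain ⟨y, hy⟩ := h2
      set t := -g 0 1
      have h10 : t * g 1 0 = 1 := by linear_combination hd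
      have h00 : g 0 0 = 0 := by rw [h₁, hα, Int.cast_zero, mul_zero]
      have e : g = upr (-t) * (lwr (2 * y) * (lwr (2 * -y) * (upr t * g))) := by
        rw [← mul_assoc (lwr (2 * y)), ← lwr_add, ← mul_add, add_neg_cancel, mul_zero, lwr_zero,
          one_mul, ← mul_assoc, ← upr_add, neg_add_cancel, upr_zero, one_mul]
      rw [e]
      refine mul_mem (upr_mem_genSub _) (mul_mem (lwr_mem_genSub _)
        (mem_genSub_of_entry_zero hq ?_))
      simp [mul_apply00, mul_apply10, h00]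
      linear_combination hy - 2 * y * h10
    -- Otherwise a translation shrinks the larger of the two numerators.
    rcases le_or_gt γ.natAbs α.natAbs with hle | hlt
    · set k : ℤ := if (0 ≤ α ↔ 0 ≤ γ) then -1 else 1
      have hlt' : (α + k * γ).natAbs < α.natAbs := by
        simp only [k]; split_ifs with h <;> omega
      set t : Zq q := (u₁ : Zq q) * ((u₂⁻¹ : (Zq q)ˣ) : Zq q) * k
      have hmem := ih ((α + k * γ).natAbs + γ.natAbs) (by omega) (upr t * g) (α + k * γ) γ u₁ u₂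
        (by
          simp [mul_apply00, h₁, h₂, t]
          linear_combination ((u₁ : Zq q) * k * γ) * u₂.inv_mul)
        (by simp [mul_apply10, h₂]) (by simpa [mul_apply10] using h2) le_rfl
      have e : g = upr (-t) * (upr t * g) := by
        rw [← mul_assoc, ← upr_add, neg_add_cancel, upr_zero, one_mul]
      rw [e]
      exact mul_mem (upr_mem_genSub _) hmem
    · set k : ℤ := if (0 ≤ α ↔ 0 ≤ γ) then -1 else 1
      have hlt' : (γ + 2 * k * α).natAbs < γ.natAbs := by
        simp only [k]; split_ifs with h <;> omega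
      set t : Zq q := (u₂ : Zq q) * ((u₁⁻¹ : (Zq q)ˣ) : Zq q) * k
      have h10 : (lwr (2 * t) * g) 1 0 = (u₂ : Zq q) * ((γ + 2 * k * α : ℤ) : Zq q) := by
        simp [mul_apply10, h₁, h₂, t]
        linear_combination (2 * (u₂ : Zq q) * k * α) * u₁.inv_mul
      have hmem := ih (α.natAbs + (γ + 2 * k * α).natAbs) (by omega) (lwr (2 * t) * g) α
        (γ + 2 * k * α) u₁ u₂ (by simp [mul_apply00, h₁]) h10
        (by
          obtain ⟨y, hy⟩ := h2
          exact ⟨t * g 0 0 + y, by simp [mul_apply10]; linear_combination hy⟩) le_rfl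
      have e : g = lwr (2 * -t) * (lwr (2 * t) * g) := by
        rw [← mul_assoc, ← lwr_add, ← mul_add, neg_add_cancel, mul_zero, lwr_zero, one_mul]
      rw [e]
      exact mul_mem (lwr_mem_genSub _) hmem

theorem mem_genSub_of_two_dvd (hq : q.Prime) {g : SL(2, Zq q)} (h : (2 : Zq q) ∣ g 1 0) :
    g ∈ genSub q := by
  obtain ⟨α, i, hi⟩ := exists_mul_pow_eq_intCast (g 0 0)
  obtain ⟨γ, j, hj⟩ := exists_mul_pow_eq_intCast (g 1 0)
  refine mem_genSub_aux hq _ g α γ (qUnit q ^ i)⁻¹ (qUnit q ^ j)⁻¹ ?_ ?_ h le_rfl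
  · rw [← hi, Units.eq_inv_mul_iff_mul_eq]; simp [mul_comm]
  · rw [← hj, Units.eq_inv_mul_iff_mul_eq]; simp [mul_comm]

/-- the character of order three of `SL(2, ℤ/3)` -/
def char3 (g : SL(2, ZMod 3)) : ZMod 3 :=
  (1 - g 1 0 ^ 2) * (g 0 1 * g 1 1 + g 1 0) + g 1 0 * (g 0 0 + g 1 1)

theorem char3_one : char3 1 = 0 := by simp [char3]

theorem char3_mul_upr_aux : ∀ a b c d s : ZMod 3, a * d - b * c = 1 →
    (1 - c ^ 2) * ((a * s + b) * (c * s + d) + c) + c * (a + (c * s + d)) =
      (1 - c ^ 2) * (b * d + c) + c * (a + d) + s := by decide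

theorem char3_mul_lwr_aux : ∀ a b c d s : ZMod 3, a * d - b * c = 1 →
    (1 - (c + d * s) ^ 2) * (b * d + (c + d * s)) + (c + d * s) * ((a + b * s) + d) =
      (1 - c ^ 2) * (b * d + c) + c * (a + d) - s := by decide

theorem char3_mul_upr (g : SL(2, ZMod 3)) (s : ZMod 3) :
    char3 (g * upr s) = char3 g + s := by
  simpa [char3, mul_apply00, mul_apply01, mul_apply10, mul_apply11] using
    char3_mul_upr_aux (g 0 0) (g 0 1) (g 1 0) (g 1 1) s (det_eq g)

theorem char3_mul_lwr (g : SL(2, ZMod 3)) (s : ZMod 3) :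
    char3 (g * lwr s) = char3 g - s := by
  simpa [char3, mul_apply00, mul_apply01, mul_apply10, mul_apply11] using
    char3_mul_lwr_aux (g 0 0) (g 0 1) (g 1 0) (g 1 1) s (det_eq g)

end Fermat.Agent.LevelRaising
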