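import Mathlib.NumberTheory.LSeries.PrimesInAP
import Mathlib.NumberTheory.LegendreSymbol.QuadraticReciprocity
import Mathlib.Tactic

/-!
# Auxiliary primes for the twist argument

Primes `π` at which `q ^ (π / 2) = -1` with prescribed 2-power part of `π - 1`.
-/

namespace Fermat.Agent.LevelRaising

/-- `π` is a prime with `π / 2 = 2 ^ (J - 1) * odd` and `q` a non-residue mod `π`. -/
def GoodPrime (q J π : ℕ) : Prop :=
  π.Prime ∧ ∃ o : ℕ, Odd o ∧ π / 2 = 2 ^ (J - 1) * o ∧ (q : ZMod π) ^ (π / 2) = -1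

theorem nonresidue_pow {q π : ℕ} (hπ : π.Prime) (h : ¬ IsSquare ((q : ℕ) : ZMod π)) :
    (q : ZMod π) ^ (π / 2) = -1 := by
  have := Fact.mk hπ
  have h0 : (q : ZMod π) ≠ 0 := fun h0 => h (by rw [h0]; exact IsSquare.zero)
  rcases ZMod.pow_div_two_eq_neg_one_or_one π h0 with h1 | h1
  · exact absurd ((ZMod.euler_criterion π h0).mpr h1) h
  · exact h1

theorem goodPrime_of_mod {q J π : ℕ} (hπ : π.Prime) (hJ : 1 ≤ J)
    (hmod : π % 2 ^ (J + 1) = 1 + 2 ^ J) (hns : ¬ IsSquare ((q : ℕ) : ZMod π)) :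
    GoodPrime q J π := by
  refine ⟨hπ, 2 * (π / 2 ^ (J + 1)) + 1, ⟨_, rfl⟩, ?_, nonresidue_pow hπ hns⟩
  obtain ⟨i, rfl⟩ : ∃ i, J = i + 1 := ⟨J - 1, by omega⟩
  simp only [Nat.add_sub_cancel]
  have h := Nat.div_add_mod π (2 ^ (i + 1 + 1))
  rw [hmod] at h
  have e : π = 2 * (2 ^ i * (2 * (π / 2 ^ (i + 1 + 1)) + 1)) + 1 := by
    rw [pow_succ, pow_succ] at h ⊢
    linarith
  omega

theorem exists_goodPrime_odd {q J n c : ℕ} (hq : q.Prime) (hq2 : q ≠ 2) (hJ : 2 ≤ J) (hn : n ≠ 0)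
    (h2n : 2 ^ (J + 1) ∣ n) (hqn : q.Coprime n) (hc : c.Coprime n)
    (hc2 : c % 2 ^ (J + 1) = 1 + 2 ^ J) (B : ℕ) :
    ∃ π, B < π ∧ GoodPrime q J π ∧ π ≡ c [MOD n] := by
  have := Fact.mk hq
  obtain ⟨ν, hν⟩ := FiniteField.exists_nonsquare (F := ZMod q) (by rwa [ZMod.ringChar_zmod_n])
  set d := Nat.chineseRemainder hqn ν.val c
  have hdq : (d : ℕ).Coprime q := by
    refine Nat.Coprime.symm (hq.coprime_iff_not_dvd.mpr fun hdvd => hν ?_)
    have h0 : ((d : ℕ) : ZMod q) = 0 := (ZMod.natCast_eq_zero_iff _ _).mpr hdvd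
    rw [(ZMod.natCast_eq_natCast_iff _ _ _).mpr d.2.1, ZMod.natCast_zmod_val] at h0
    exact h0 ▸ IsSquare.zero
  have hdn : (d : ℕ).Coprime n := by
    rw [Nat.coprime_iff_gcd_eq_one, (d.2.2).gcd_eq]
    exact hc
  obtain ⟨π, hπB, hπ, hmod⟩ := Nat.forall_exists_prime_gt_and_modEq (max B q)
    (mul_ne_zero hq.ne_zero hn) (Nat.Coprime.mul_right hdq hdn)
  have hπn : π ≡ c [MOD n] := (hmod.of_mul_left q).trans d.2.2
  have hπq : π ≡ ν.val [MOD q] := (hmod.of_mul_right n).trans d.2.1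
  have hπmod : π % 2 ^ (J + 1) = 1 + 2 ^ J := Eq.trans (hπn.of_dvd h2n) hc2
  have hπ4 : π % 4 = 1 := by
    have h4 : 4 ∣ 2 ^ (J + 1) :=
      ⟨2 ^ (J - 1), by rw [show 4 = 2 ^ 2 from rfl, ← pow_add]; congr 1; omega⟩
    have h4' : 4 ∣ 2 ^ J := ⟨2 ^ (J - 2),
      by rw [show 4 = 2 ^ 2 from rfl, ← pow_add]; congr 1; omega⟩
    rw [← Nat.mod_mod_of_dvd π h4, hπmod]
    omega
  have := Fact.mk hπ
  refine ⟨π, by omega, goodPrime_of_mod hπ (by omega) hπmod fun hsq => hν ?_, hπn⟩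
  have := (ZMod.exists_sq_eq_prime_iff_of_mod_four_eq_one hπ4 hq2).mp hsq
  rwa [(ZMod.natCast_eq_natCast_iff _ _ _).mpr hπq, ZMod.natCast_zmod_val] at this

theorem exists_goodPrime_two {J n c : ℕ} (hJ : J = 1 ∨ J = 2) (hn : Odd n) (hc : c.Coprime n)
    (B : ℕ) : ∃ π, B < π ∧ GoodPrime 2 J π ∧ π ≡ c [MOD n] := by
  have hn0 : n ≠ 0 := by rintro rfl; simp at hn
  have h8 : Nat.Coprime 8 n := by
    rw [show 8 = 2 ^ 3 from rfl]
    exact Nat.Coprime.pow_left 3 ((Nat.coprime_two_left (n := n)).mpr hn)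
  set e := if J = 1 then 3 else 5 with he
  have he' : e = 3 ∧ J = 1 ∨ e = 5 ∧ J = 2 := by rcases hJ with rfl | rfl <;> simp [he]
  set d := Nat.chineseRemainder h8 e c
  have hd8 : (d : ℕ).Coprime 8 := by
    rw [Nat.coprime_iff_gcd_eq_one, (d.2.1).gcd_eq]
    rcases he' with ⟨h, -⟩ | ⟨h, -⟩ <;> rw [h] <;> rfl
  have hdn : (d : ℕ).Coprime n := by
    rw [Nat.coprime_iff_gcd_eq_one, (d.2.2).gcd_eq]
    exact hc
  obtain ⟨π, hπB, hπ, hmod⟩ := Nat.forall_exists_prime_gt_and_modEq (max B 2)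
    (mul_ne_zero (by norm_num) hn0) (Nat.Coprime.mul_right hd8 hdn)
  have hπn : π ≡ c [MOD n] := (hmod.of_mul_left 8).trans d.2.2
  have hπ8 : π % 8 = e % 8 := (hmod.of_mul_right n).trans d.2.1
  have := Fact.mk hπ
  refine ⟨π, by omega, goodPrime_of_mod hπ (by omega) ?_ fun hsq => ?_, hπn⟩
  · rcases he' with ⟨h, rfl⟩ | ⟨h, rfl⟩ <;> rw [h] at hπ8 <;> norm_num <;> omega
  · have hsq' : IsSquare (2 : ZMod π) := by simpa using hsq
    have := (ZMod.exists_sq_eq_two_iff (by omega)).mp hsq'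
    rcases he' with ⟨h, -⟩ | ⟨h, -⟩ <;> rw [h] at hπ8 <;> omega

theorem exists_goodPrime_finset_two {J n c : ℕ} (hJ : J = 1 ∨ J = 2) (hn : Odd n)
    (hc : c.Coprime n) :
    ∃ S : Finset ℕ, (∀ π ∈ S, GoodPrime 2 J π) ∧ (∏ π ∈ S, π) ≡ c [MOD n] := by
  obtain ⟨π, -, hπ, h⟩ := exists_goodPrime_two hJ hn hc 0
  exact ⟨{π}, by simpa using hπ, by simpa using h⟩

theorem exists_goodPrime_finset_odd {q J n c : ℕ} (hq : q.Prime) (hq2 : q ≠ 2) (hJ : 2 ≤ J)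
    (hn : n ≠ 0) (h2n : 2 ^ (J + 1) ∣ n) (hqn : q.Coprime n) (hc : c.Coprime n)
    (hc1 : c % 2 ^ J = 1) :
    ∃ S : Finset ℕ, (∀ π ∈ S, GoodPrime q J π) ∧ (∏ π ∈ S, π) ≡ c [MOD n] := by
  -- If `c ≡ 1 + 2 ^ J` modulo `2 ^ (J + 1)` one prime suffices.
  by_cases hc2 : c % 2 ^ (J + 1) = 1 + 2 ^ J
  · obtain ⟨π, -, hπ, h⟩ := exists_goodPrime_odd hq hq2 hJ hn h2n hqn hc hc2 0
    exact ⟨{π}, by simpa using hπ, by simpa using h⟩
  · have hone : 1 < 2 ^ J := Nat.one_lt_two_pow (by omega)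
    have hc3 : c % 2 ^ (J + 1) = 1 := by
      have hlt : c % 2 ^ (J + 1) < 2 * 2 ^ J := by
        have := Nat.mod_lt c (y := 2 ^ (J + 1)) (by positivity)
        rwa [show 2 * 2 ^ J = 2 ^ (J + 1) from (pow_succ' 2 J).symm]
      have hmm : c % 2 ^ (J + 1) % 2 ^ J = 1 := by
        rw [Nat.mod_mod_of_dvd c ⟨2, by rw [pow_succ]⟩, hc1]
      rcases Nat.lt_or_ge (c % 2 ^ (J + 1)) (2 ^ J) with h | h
      · rwa [Nat.mod_eq_of_lt h] at hmm
      · rw [Nat.mod_eq_sub_mod h, Nat.mod_eq_of_lt (by omega)] at hmm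
        omega
    have hlt2 : 1 + 2 ^ J < 2 ^ (J + 1) := by rw [pow_succ]; omega
    -- Otherwise take one good prime `π₁`, and a second one in the class of `c / π₁`.
    have hodd : Nat.Coprime (1 + 2 ^ J) (2 ^ (J + 1)) :=
      Nat.Coprime.pow_right _ (Nat.coprime_two_right.mpr
        (by rw [Nat.odd_add]; simp [Nat.even_pow]; omega))
    obtain ⟨π₁, hπ₁n, hπ₁, hmod₁⟩ := exists_goodPrime_odd hq hq2 hJ
      (Nat.ne_of_gt (by positivity : 0 < 2 ^ (J + 1))) dvd_rfl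
      (hqn.coprime_dvd_right h2n) hodd (Nat.mod_eq_of_lt hlt2) n
    have hπ₁mod : π₁ % 2 ^ (J + 1) = 1 + 2 ^ J := Eq.trans hmod₁ (Nat.mod_eq_of_lt hlt2)
    have hcop : π₁.Coprime n :=
      hπ₁.1.coprime_iff_not_dvd.mpr fun hd =>
        absurd (Nat.le_of_dvd (Nat.pos_of_ne_zero hn) hd) (by omega)
    have : NeZero n := ⟨hn⟩
    set u : (ZMod n)ˣ := ZMod.unitOfCoprime c hc * (ZMod.unitOfCoprime π₁ hcop)⁻¹ with hu
    have hv : (π₁ : ℕ) * (u : ZMod n).val ≡ c [MOD n] := by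
      rw [← ZMod.natCast_eq_natCast_iff]
      simp only [Nat.cast_mul, ZMod.natCast_zmod_val, hu]
      rw [← ZMod.coe_unitOfCoprime c hc, ← ZMod.coe_unitOfCoprime π₁ hcop, ← Units.val_mul,
        mul_comm (ZMod.unitOfCoprime c hc), mul_inv_cancel_left]
    have hv2 : (u : ZMod n).val % 2 ^ (J + 1) = 1 + 2 ^ J := by
      have h1 : π₁ * (u : ZMod n).val % 2 ^ (J + 1) = 1 := Eq.trans (hv.of_dvd h2n) hc3
      rw [Nat.mul_mod, hπ₁mod] at h1
      have hsq : (1 + 2 ^ J) * (1 + 2 ^ J) % 2 ^ (J + 1) = 1 := by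
        obtain ⟨i, rfl⟩ : ∃ i, J = i + 1 := ⟨J - 1, by omega⟩
        have e : (1 + 2 ^ (i + 1)) * (1 + 2 ^ (i + 1)) = 1 + 2 ^ (i + 1 + 1) * (1 + 2 ^ i) := by
          rw [pow_succ, pow_succ]; ring
        rw [e, Nat.add_mul_mod_self_left, Nat.one_mod_eq_one]
        omega
      set v := (u : ZMod n).val % 2 ^ (J + 1) with hvdef
      calc v = 1 * v % 2 ^ (J + 1) := by rw [one_mul, hvdef, Nat.mod_mod]
        _ = (1 + 2 ^ J) * (1 + 2 ^ J) * v % 2 ^ (J + 1) := by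
          conv_rhs => rw [Nat.mul_mod, hsq]
          rw [hvdef, Nat.mod_mod]
        _ = 1 + 2 ^ J := by
          rw [mul_assoc, Nat.mul_mod, h1, mul_one, Nat.mod_mod, Nat.mod_eq_of_lt hlt2]
    obtain ⟨π₂, hgt, hπ₂, hmod₂⟩ := exists_goodPrime_odd hq hq2 hJ hn h2n hqn
      (ZMod.val_coe_unit_coprime u) hv2 π₁
    refine ⟨{π₁, π₂}, by simp [hπ₁, hπ₂], ?_⟩
    rw [Finset.prod_pair hgt.ne]
    exact (hmod₂.mul_left π₁).trans hv

theorem goodPrime_pow_eq {q J π O : ℕ} (h : GoodPrime q J π)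
    (hO : Odd O) (hdvd : π / 2 / 2 ^ (J - 1) ∣ O) :
    (q : ZMod π) ^ (2 ^ (J - 1) * O) = -1 := by
  obtain ⟨-, o, -, hval, hpow⟩ := h
  rw [hval, Nat.mul_div_cancel_left _ (by positivity)] at hdvd
  obtain ⟨t, rfl⟩ := hdvd
  rw [← mul_assoc, pow_mul, ← hval, hpow, (Nat.Odd.of_mul_right hO).neg_one_pow]

/-- The odd exponent attached to a set of good primes. -/
def oddExp (J : ℕ) (S : Finset ℕ) : ℕ := ∏ π ∈ S, π / 2 / 2 ^ (J - 1)

theorem odd_oddExp {q J : ℕ} {S : Finset ℕ} (h : ∀ π ∈ S, GoodPrime q J π) :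
    Odd (oddExp J S) := by
  refine Finset.prod_induction _ Odd (fun _ _ => Odd.mul) odd_one fun π hπ => ?_
  obtain ⟨-, o, ho, hval, -⟩ := h π hπ
  rwa [hval, Nat.mul_div_cancel_left _ (by positivity)]

theorem prod_dvd_pow_add_one {q J O : ℕ} {S : Finset ℕ} (h : ∀ π ∈ S, GoodPrime q J π)
    (hO : Odd O) (hdvd : oddExp J S ∣ O) :
    (∏ π ∈ S, π) ∣ q ^ (2 ^ (J - 1) * O) + 1 := by
  refine Finset.prod_primes_dvd _ (fun π hπ => (h π hπ).1.prime) fun π hπ => ?_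
  rw [← ZMod.natCast_eq_zero_iff]
  push_cast
  rw [goodPrime_pow_eq (h π hπ) hO ((Finset.dvd_prod_of_mem _ hπ).trans hdvd)]
  ring

theorem gcd_dvd_two {q J O M : ℕ} (hJ : 2 ≤ J) (hq : Odd q)
    (hM : ∀ r, r.Prime → r ∣ M → r ≠ 2 → ¬ 2 ^ J ∣ r - 1) :
    Nat.gcd (q ^ (2 ^ (J - 1) * O) + 1) M ∣ 2 := by
  set g := Nat.gcd (q ^ (2 ^ (J - 1) * O) + 1) M with hg
  have hg4 : ¬ 4 ∣ g := fun h => by
    obtain ⟨k, hk⟩ : ∃ k, 2 ^ (J - 1) * O = 2 * k :=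
      ⟨2 ^ (J - 2) * O, by rw [← mul_assoc, ← pow_succ', show J - 2 + 1 = J - 1 by omega]⟩
    have h4 := h.trans (Nat.gcd_dvd_left _ _)
    rw [hk, pow_mul', ← ZMod.natCast_eq_zero_iff] at h4
    obtain ⟨b, hb⟩ := hq.pow (n := k)
    rw [hb] at h4
    push_cast at h4
    generalize (b : ZMod 4) = x at h4
    revert x
    decide
  have hpr : ∀ r, r.Prime → r ∣ g → r = 2 := by
    intro r hr hrg
    by_contra hr2
    have := Fact.mk hr
    have h1 := hrg.trans (Nat.gcd_dvd_left _ _)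
    rw [← ZMod.natCast_eq_zero_iff] at h1
    push_cast at h1
    have hx : ((q : ZMod r) ^ O) ^ 2 ^ (J - 1) = -1 := by
      rw [← pow_mul, mul_comm]; linear_combination h1
    have : Fact (2 < r) := ⟨lt_of_le_of_ne hr.two_le (Ne.symm hr2)⟩
    have hord : orderOf ((q : ZMod r) ^ O) = 2 ^ (J - 1 + 1) := by
      refine orderOf_eq_prime_pow ?_ ?_
      · rw [hx]; exact ZMod.neg_one_ne_one
      · rw [pow_succ, pow_mul, hx]; ring
    have hx0 : (q : ZMod r) ^ O ≠ 0 := fun h0 => by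
      rw [h0, zero_pow (by positivity)] at hx
      exact one_ne_zero (α := ZMod r) (by linear_combination hx)
    have := ZMod.orderOf_dvd_card_sub_one hx0
    rw [hord, show J - 1 + 1 = J by omega] at this
    exact hM r hr (hrg.trans (Nat.gcd_dvd_right _ _)) hr2 this
  have hg0 : g ≠ 0 := by simp [hg]
  have hle := Nat.eq_prime_pow_of_unique_prime_dvd hg0 fun {d} hd hdg => hpr d hd hdg
  rw [hle] at hg4 ⊢
  rcases Nat.lt_or_ge g.primeFactorsList.length 2 with h | h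
  · exact Nat.pow_dvd_pow 2 (show _ ≤ 1 by omega) |>.trans (by norm_num)
  · exact absurd (Nat.pow_dvd_pow 2 h) hg4

theorem coprime_two_pow_add_one {a b : ℕ} (ha : Odd a) :
    Nat.Coprime (2 ^ a + 1) (2 ^ (2 * b) + 1) := by
  refine Nat.coprime_of_dvd fun r hr h1 h2 => ?_
  rw [← ZMod.natCast_eq_zero_iff] at h1 h2
  push_cast at h1 h2
  have := Fact.mk hr
  have e1 : (2 : ZMod r) ^ a = -1 := by linear_combination h1
  have e2 : (2 : ZMod r) ^ (2 * b) = -1 := by linear_combination h2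
  have e3 : ((2 : ZMod r) ^ a) ^ (2 * b) = 1 := by
    rw [e1, pow_mul]; simp
  rw [← pow_mul, mul_comm, pow_mul, e2, ha.neg_one_pow] at e3
  have h20 : (2 : ZMod r) = 0 := by linear_combination -e3
  rw [h20, zero_pow ha.pos.ne', zero_add] at h1
  exact one_ne_zero h1

end Fermat.Agent.LevelRaising
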