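import Fermat.Agent.LevelRaising.Commute

/-!
# The lemma of Ihara over a field of odd characteristic

`RaiseData.res_add_conj_ne_zero`: for a nonzero parabolic eigenclass `w` of `T_ℓ - (1 + ℓ)`,
`ℓ` an auxiliary prime, with nonzero eigenvalue, no combination `res w + e • conj w` (`e : ℤ`) of
its two degeneracy images at level `N q` vanishes. A relation gives a functional equation for a
function on cusps with these periods; by the congruence subgroup property of `Congruence` (through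
`Cusps`), `(T_ℓ - 1 - ℓ)³` then kills the eigenclass. `tOp_tOp_mem_degImage` is the dual statement
on crossing homomorphisms.
-/

set_option autoImplicit false

noncomputable section

namespace Fermat.Agent.LevelRaising

open CongruenceSubgroup Fermat.Agent.Periods
open Matrix.SpecialLinearGroup
open ModularCurve.Period
open scoped MatrixGroups Matrix

/-- `T_ℓ - (1 + ℓ)` -/
def tOp {L ℓ : ℕ} [NeZero L] (hℓ : ℓ.Prime) (hℓL : ¬ ℓ ∣ L) (R : Type*) [Semiring R] {A : Type*}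
    [AddCommGroup A] [Module R A] :
    (Additive (Gamma0 L) →+ A) →ₗ[R] (Additive (Gamma0 L) →+ A) :=
  homT hℓ hℓL R - (1 + ℓ) • LinearMap.id

/-- `tOp` is `T_ℓ - (1 + ℓ)`. -/
theorem tOp_apply {L ℓ : ℕ} [NeZero L] (hℓ : ℓ.Prime) (hℓL : ¬ ℓ ∣ L) (R : Type*) [Semiring R]
    {A : Type*} [AddCommGroup A] [Module R A] (φ : Additive (Gamma0 L) →+ A) :
    tOp hℓ hℓL R φ = homT hℓ hℓL ℤ φ - (1 + ℓ) • φ := rfl

/-- The standing hypotheses on the auxiliary prime. -/
structure AuxPrime (q N ℓ : ℕ) : Prop where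
  prime : ℓ.Prime
  not_dvd : ¬ ℓ ∣ N * q
  dvd_sub : (levelM q N : ℤ) ∣ (ℓ : ℤ) - 1
  dvd_sub' : ((N * q : ℕ) : ℤ) ∣ (ℓ : ℤ) - 1

/-- The auxiliary prime does not divide the level. -/
theorem AuxPrime.not_dvd_left {q N ℓ : ℕ} (a : AuxPrime q N ℓ) : ¬ ℓ ∣ N :=
  fun h => a.not_dvd (h.mul_right q)

/-- The auxiliary prime does not divide `q`. -/
theorem AuxPrime.not_dvd_right {q N ℓ : ℕ} (a : AuxPrime q N ℓ) : ¬ ℓ ∣ q :=
  fun h => a.not_dvd (h.mul_left N)

section Periods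

variable {A : Type*} [AddCommGroup A] {L : ℕ}

/-- The periods of a constant function vanish. -/
theorem HasPeriods.eq_zero {ψ : (Fin 2 → ℚ) → A} {χ : Additive (Gamma0 L) →+ A}
    (h : HasPeriods L ψ χ) (c : A) (hc : ∀ x, x ≠ 0 → ψ x = c) : χ = 0 := by
  refine AddMonoidHom.ext fun y => ?_
  rw [← ofMul_toMul y]
  have := h (Additive.toMul y) ![1, 0] basisVec_ne_zero
  rw [hc _ (act_ne_zero _ basisVec_ne_zero), hc _ basisVec_ne_zero] at this
  exact left_eq_add.mp this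

/-- A function with periods is invariant up to constants under the unit translation. -/
theorem HasPeriods.intSL_upr {ψ : (Fin 2 → ℚ) → A} (h : ∃ χ, HasPeriods (A := A) L ψ χ) :
    intSL (upr 1) ∈ quasiGroup ψ := by
  obtain ⟨χ, h⟩ := h
  exact (h.mem ⟨upr 1, upr_mem_Gamma0 L 1⟩).1

/-- A function with values determined up to translation has periods. -/
theorem exists_hasPeriods (ψ : (Fin 2 → ℚ) → A)
    (h : ∀ γ : Gamma0 L, ∃ c : A, ∀ x, x ≠ 0 → ψ (act (γ : SL(2, ℤ)) x) = ψ x + c) :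
    ∃ χ, HasPeriods L ψ χ := by
  choose c hc using h
  refine ⟨AddMonoidHom.mk' (fun y => c (Additive.toMul y)) fun y z => ?_, fun γ x hx => ?_⟩
  · have e := hc (Additive.toMul y * Additive.toMul z) ![1, 0] basisVec_ne_zero
    rw [Subgroup.coe_mul, act_mul, hc _ _ (act_ne_zero _ basisVec_ne_zero),
      hc _ _ basisVec_ne_zero, add_assoc, add_right_inj] at e
    rw [toMul_add, ← e, add_comm]
  · exact hc γ x hx

end Periods

variable {q N p ℓ : ℕ}

/-- **Ihara's lemma**: for a nonzero parabolic eigenclass `w` of `T_ℓ - (1 + ℓ)` with nonzero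
eigenvalue over a field of odd characteristic, no `res w + e • conj w` vanishes at level `N q`. -/
theorem RaiseData.res_add_conj_ne_zero [NeZero N] (h : RaiseData q N)
    (a : AuxPrime q N ℓ) (hp : p.Prime) (hp2 : p ≠ 2) {K : Type*} [Field K] [CharP K p]
    {w : Additive (Gamma0 N) →+ K} (hw : IsParabolicHom (Gamma0 N) w) (hw0 : w ≠ 0)
    {c : K} (hc : c ≠ 0) (hev : tOp a.prime a.not_dvd_left K w = c • w) (e : ℤ) :
    (RaiseData.resSys q N).apply w + e • h.conjSys.apply w ≠ 0 := by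
  intro h0
  have : NeZero ℓ := ⟨a.prime.ne_zero⟩
  have hA : ∀ x : K, p • x = 0 := fun x => by rw [nsmul_eq_mul, CharP.cast_eq_zero, zero_mul]
  obtain ⟨ψ, hψ, hper⟩ := exists_cuspFun (Gamma0 N) w hw
  have hp0 : HasPeriods N ψ w := hper
  have hαdet : (alphaMat q).det ≠ 0 := by simp [h.det_alphaMat, h.prime.ne_zero]
  set φ : (Fin 2 → ℚ) → K := fun x => ψ x + e • ψ (actM (alphaMat q) x) with hφ
  have hφc : IsCuspFun φ := fun d x hd hx => by
    simp only [hφ, actM_smul, hψ d x hd hx, hψ d _ hd (actM_ne_zero hαdet hx)]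
  have hφp : HasPeriods (N * q) φ 0 := by
    intro γ x hx
    obtain ⟨g, hg⟩ := exists_res_lift γ
    obtain ⟨g', hg'⟩ := h.exists_conj_lift γ
    have e0 := congrArg (fun X : Additive (Gamma0 (N * q)) →+ K => X (Additive.ofMul γ)) h0
    simp only [AddMonoidHom.add_apply, AddMonoidHom.smul_apply, AddMonoidHom.zero_apply,
      res_apply w γ hg, h.conj_apply w γ hg'] at e0
    have e1 : actM (alphaMat q) (act (γ : SL(2, ℤ)) x) =
        act (g' : SL(2, ℤ)) (actM (alphaMat q) x) := by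
      rw [← actM_eq_act, ← actM_mul, hg', actM_mul, actM_eq_act]
    simp only [hφ, e1, hper g' _ (actM_ne_zero hαdet hx), AddMonoidHom.zero_apply, add_zero]
    rw [← hg, hper g x hx, smul_add]
    linear_combination e0
  -- the functional equation of `t ψ`
  obtain ⟨c0, hc0⟩ := exists_tFun_alpha hp0 a.prime a.not_dvd_right
  set ψ1 := tFun ℓ ψ with hψ1
  have hfe : ∀ x, x ≠ 0 → ψ1 x = (-e) • ψ1 (!![(q : ℚ), 0; 0, 1] *ᵥ x) + -(e • c0) := by
    intro x hx
    have z := tFun_eq_zero_of_invariant a.prime a.dvd_sub' hφc hφp hx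
    rw [hφ, tFun_add, tFun_zsmul, hc0 x hx, actM_alphaMat] at z
    rw [neg_smul, hψ1]
    rw [smul_add] at z
    linear_combination z
  have hper1 : HasPeriods N ψ1 (c • w) := by
    have := hp0.tFun a.prime a.not_dvd_left
    rwa [← tOp_apply a.prime a.not_dvd_left K, hev] at this
  have hU := upr_inv_mem_quasiGroup h.prime.ne_zero ψ1 ψ1 (-e) _ hfe
    (HasPeriods.intSL_upr ⟨_, hper1⟩)
  have hz : ∀ x, x ≠ 0 → tFun ℓ (tFun ℓ ψ1) x = 0 := fun x hx =>
    tFun_tFun_eq_zero h.prime h.not_dvd hp hp2 hA a.prime a.not_dvd_left a.dvd_sub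
      (hψ.tFun ℓ) hper1 hU hx
  have h3 := HasPeriods.eq_zero ((hper1.tFun a.prime a.not_dvd_left).tFun a.prime a.not_dvd_left)
    0 hz
  rw [← tOp_apply a.prime a.not_dvd_left K, ← tOp_apply a.prime a.not_dvd_left K] at h3
  simp only [map_smul, hev, smul_smul] at h3
  exact (smul_ne_zero (mul_ne_zero (mul_ne_zero hc hc) hc) hw0) h3

section Range

variable {K : Type*} [Field K]

theorem crossHomR_add {Γ : Subgroup SL(2, ℤ)} {u v w : Fin 2 → ℚ} (hu : u ≠ 0) (hv : v ≠ 0)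
    (hw : w ≠ 0) : crossHomR K Γ u v + crossHomR K Γ v w = crossHomR K Γ u w := by
  refine AddMonoidHom.ext fun x => ?_
  simp only [AddMonoidHom.add_apply, crossHomR_apply, ← crossHom_add (Γ := Γ) hu hv hw]
  push_cast; rfl

/-- A functional on crossing homomorphisms comes from `ψ`. -/
def Represents (L : ℕ) (f : (Additive (Gamma0 L) →+ K) →ₗ[K] K) (ψ : (Fin 2 → ℚ) → K) : Prop :=
  ∀ u v, u ≠ 0 → v ≠ 0 → f (crossHomR K (Gamma0 L) u v) = ψ v - ψ u

theorem represents_base {L : ℕ} (f : (Additive (Gamma0 L) →+ K) →ₗ[K] K) :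
    Represents L f (fun x => f (crossHomR K (Gamma0 L) ![1, 0] x)) := fun u v hu hv => by
  dsimp only
  rw [← crossHomR_add (K := K) basisVec_ne_zero hu hv, map_add, add_sub_cancel_left]

theorem Represents.tFun {L : ℕ} [NeZero L] (hℓ : ℓ.Prime) (hℓL : ¬ ℓ ∣ L) [NeZero ℓ]
    {f : (Additive (Gamma0 L) →+ K) →ₗ[K] K} {ψ : (Fin 2 → ℚ) → K} (h : Represents L f ψ) :
    Represents L (f ∘ₗ tOp hℓ hℓL K) (LevelRaising.tFun ℓ ψ) := by
  intro u v hu hv
  have e : ∀ j, f (crossHomR K (Gamma0 L) (actM (tMat ℓ j) u) (actM (tMat ℓ j) v)) =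
      ψ (actM (tMat ℓ j) v) - ψ (actM (tMat ℓ j) u) := fun j =>
    h _ _ (actM_ne_zero (det_tMat_ne_zero ℓ j) hu) (actM_ne_zero (det_tMat_ne_zero ℓ j) hv)
  show f (homT hℓ hℓL K (crossHomR K (Gamma0 L) u v) - (1 + ℓ) • crossHomR K (Gamma0 L) u v) = _
  rw [map_sub, map_nsmul, homT_crossHomR hℓ hℓL, map_sum, h u v hu hv]
  simp only [e, Finset.sum_sub_distrib, LevelRaising.tFun, nsmul_eq_mul]
  ring

/-- the reduced degeneracy image -/
def degImage (q N : ℕ) (K : Type*) [Field K] :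
    Submodule K ((Additive (Gamma0 N) →+ K) × (Additive (Gamma0 N) →+ K)) :=
  Submodule.span K {z | ∃ u v : Fin 2 → ℚ, u ≠ 0 ∧ v ≠ 0 ∧
    z = (crossHomR K (Gamma0 N) u v,
      crossHomR K (Gamma0 N) (actM (alphaMat q) u) (actM (alphaMat q) v))}

/-- **Ihara's lemma**, dual form: for `x = (T_ℓ - 1 - ℓ)²` of a crossing homomorphism, both
`(x, 0)` and `(0, x)` lie in the image of the degeneracy maps. -/
theorem RaiseData.tOp_tOp_mem_degImage [NeZero N] (h : RaiseData q N) (a : AuxPrime q N ℓ)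
    (hp : p.Prime) (hp2 : p ≠ 2) [CharP K p] {u v : Fin 2 → ℚ} (hu : u ≠ 0) (hv : v ≠ 0) :
    (tOp a.prime a.not_dvd_left K (tOp a.prime a.not_dvd_left K (crossHomR K (Gamma0 N) u v)), 0)
        ∈ degImage q N K ∧
    (0, tOp a.prime a.not_dvd_left K (tOp a.prime a.not_dvd_left K (crossHomR K (Gamma0 N) u v)))
        ∈ degImage q N K := by
  have : NeZero ℓ := ⟨a.prime.ne_zero⟩
  have hA : ∀ x : K, p • x = 0 := fun x => by rw [nsmul_eq_mul, CharP.cast_eq_zero, zero_mul]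
  have hαdet : (alphaMat q).det ≠ 0 := by simp [h.det_alphaMat, h.prime.ne_zero]
  set T := tOp (L := N) (A := K) a.prime a.not_dvd_left K
  suffices H : ∀ f : ((Additive (Gamma0 N) →+ K) × (Additive (Gamma0 N) →+ K)) →ₗ[K] K,
      degImage q N K ≤ LinearMap.ker f →
      f (T (T (crossHomR K (Gamma0 N) u v)), 0) = 0 ∧
      f (0, T (T (crossHomR K (Gamma0 N) u v))) = 0 by
    constructor <;> by_contra hn <;> obtain ⟨f, hf, hle⟩ := Submodule.exists_le_ker_of_notMem hn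
    · exact hf (H f hle).1
    · exact hf (H f hle).2
  intro f hf
  set f1 := f ∘ₗ LinearMap.inl K _ _
  set f2 := f ∘ₗ LinearMap.inr K (Additive (Gamma0 N) →+ K) _
  set ψ1 : (Fin 2 → ℚ) → K := fun x => f1 (crossHomR K (Gamma0 N) ![1, 0] x) with hψ1
  set ψ2 : (Fin 2 → ℚ) → K := fun x => f2 (crossHomR K (Gamma0 N) ![1, 0] x) with hψ2
  have r1 : Represents N f1 ψ1 := represents_base f1
  have r2 : Represents N f2 ψ2 := represents_base f2
  have hcusp : ∀ g : (Additive (Gamma0 N) →+ K) →ₗ[K] K,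
      IsCuspFun fun x => g (crossHomR K (Gamma0 N) ![1, 0] x) := fun g c x hc _ =>
    congrArg g (crossHomR_congr (crossHom_smul_right hc _ _))
  have hper : ∀ g : (Additive (Gamma0 N) →+ K) →ₗ[K] K,
      ∃ χ, HasPeriods N (fun x => g (crossHomR K (Gamma0 N) ![1, 0] x)) χ := fun g =>
    exists_hasPeriods _ fun γ =>
      ⟨g (crossHomR K (Gamma0 N) ![1, 0] (act (γ : SL(2, ℤ)) ![1, 0])), fun x hx => by
        rw [← crossHomR_add (K := K) basisVec_ne_zero (act_ne_zero (γ : SL(2, ℤ)) basisVec_ne_zero)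
          (act_ne_zero _ hx), map_add, crossHomR_congr (crossHom_act γ ![1, 0] x), add_comm]⟩
  obtain ⟨χ1, hχ1⟩ := hper f1
  obtain ⟨χ2, hχ2⟩ := hper f2
  -- the relation between the two functions
  set b := ψ1 ![1, 0] + ψ2 (actM (alphaMat q) ![1, 0]) with hb
  have hrel : ∀ x, x ≠ 0 → ψ1 x = (-1 : ℤ) • ψ2 (!![(q : ℚ), 0; 0, 1] *ᵥ x) + b := by
    intro x hx
    have z := LinearMap.mem_ker.mp (hf (Submodule.subset_span ⟨_, _, basisVec_ne_zero, hx, rfl⟩))
    rw [show ∀ y z, f (y, z) = f1 y + f2 z from fun y z => by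
      simp [f1, f2, ← map_add], r1 _ _ basisVec_ne_zero hx,
      r2 _ _ (actM_ne_zero hαdet basisVec_ne_zero) (actM_ne_zero hαdet hx)] at z
    rw [← actM_alphaMat, neg_smul, one_smul, hb]
    linear_combination z
  have hU := upr_inv_mem_quasiGroup h.prime.ne_zero ψ1 ψ2 (-1) b hrel
    (HasPeriods.intSL_upr ⟨_, hχ2⟩)
  have z1 : ∀ x, x ≠ 0 → LevelRaising.tFun ℓ (LevelRaising.tFun ℓ ψ1) x = 0 := fun x hx =>
    tFun_tFun_eq_zero h.prime h.not_dvd hp hp2 hA a.prime a.not_dvd_left a.dvd_sub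
      (hcusp f1) hχ1 hU hx
  obtain ⟨c1, hc1⟩ := exists_tFun_alpha hχ2 a.prime a.not_dvd_right
  obtain ⟨c2, hc2⟩ := exists_tFun_alpha (hχ2.tFun a.prime a.not_dvd_left) a.prime a.not_dvd_right
  have z2 : ∀ x, x ≠ 0 →
      LevelRaising.tFun ℓ (LevelRaising.tFun ℓ ψ2) (actM (alphaMat q) x) = -c2 := by
    intro x hx
    have e1 : ∀ y, y ≠ 0 → LevelRaising.tFun ℓ ψ1 y =
        (-1 : ℤ) • LevelRaising.tFun ℓ ψ2 (actM (alphaMat q) y) + (-1 : ℤ) • c1 := fun y hy => by
      rw [tFun_congr ℓ (φ := fun z => (-1 : ℤ) • ψ2 (actM (alphaMat q) z) + b)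
        (fun z hz => by rw [hrel z hz, actM_alphaMat]) hy, tFun_add, tFun_const, tFun_zsmul,
        hc1 y hy, add_zero, smul_add]
    have e2 := z1 x hx
    rw [tFun_congr ℓ e1 hx, tFun_add, tFun_const, tFun_zsmul, hc2 x hx, add_zero] at e2
    rw [neg_smul, one_smul, neg_eq_zero] at e2
    exact eq_neg_of_add_eq_zero_left e2
  have z2' : ∀ y, y ≠ 0 → LevelRaising.tFun ℓ (LevelRaising.tFun ℓ ψ2) y = -c2 := fun y hy => by
    have hq : (q : ℚ) ≠ 0 := Nat.cast_ne_zero.mpr h.prime.ne_zero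
    have e : actM (alphaMat q) ![y 0 / q, y 1] = y := by
      rw [actM_alphaMat]; ext i
      fin_cases i <;> simp [Matrix.mulVec, dotProduct, Fin.sum_univ_two, mul_div_cancel₀ _ hq]
    rw [← e]
    refine z2 _ fun h0 => hy ?_
    rw [← e, h0]; simp [actM]
  have k1 := ((r1.tFun a.prime a.not_dvd_left).tFun a.prime a.not_dvd_left) u v hu hv
  have k2 := ((r2.tFun a.prime a.not_dvd_left).tFun a.prime a.not_dvd_left) u v hu hv
  rw [z1 v hv, z1 u hu, sub_self] at k1
  rw [z2' v hv, z2' u hu, sub_self] at k2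
  exact ⟨k1, k2⟩

end Range

end Fermat.Agent.LevelRaising
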