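import Fermat.Agent.LevelRaising.Commute
import Fermat.Agent.HeckeDuality.Shimura
import Fermat.Agent.IntegralStructure.Main
import Fermat.Agent.HeckeDuality.EigenConverse
import Fermat.Agent.Periods.Conj

/-!
# An eigenform new at `q` from a class killed by both degeneracy operators

`exists_eigenform_of_kernel`: an eigenvector of the `T_r`, `r ∤ N q`, among the parabolic classes
of level `N q` killed by both degeneracy operators gives a normalised eigenform with the same
eigenvalues and `a_q ^ 2 = 1`. The class is the period class of a pair of cusp forms, the square of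
`U_q` is the identity on it (`RaiseData.homU_sq_eq`), and periods are injective.
-/

set_option autoImplicit false

noncomputable section

namespace Fermat.Agent.LevelRaising

open CongruenceSubgroup Fermat.Agent.Periods ModularFormClass
open ModularCurve ModularCurve.Period

/-! ## Period classes of pairs of cusp forms -/

section Pair

variable {M : ℕ} [NeZero M]

/-- Periods are equivariant for `T_r`. -/
theorem homT_periodHomPair {r : ℕ} (hr : r.Prime) (hrM : ¬ r ∣ M)
    (g g' : CuspForm (Gamma0 M) 2) :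
    homT hr hrM ℂ (periodHomPair M (g, g')) =
      periodHomPair M (CuspForm.heckeTLin 2 hr hrM g, CuspForm.heckeTLin 2 hr hrM g') := by
  rw [Periods.periodHomPair_eq]
  simp only [LinearMap.coprod_apply, LinearMap.comp_apply, LinearMap.add_apply,
    LinearMap.sub_apply, LinearMap.id_apply, Periods.periodMapLin_apply, map_add, map_sub,
    Periods.periodMap_heckeTLin hr hrM, Periods.charInvolution_homT]

/-- Periods are equivariant for `U_r`. -/
theorem homU_periodHomPair {r : ℕ} (hr : r ≠ 0) (hrM : r ∣ M)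
    (g g' : CuspForm (Gamma0 M) 2) :
    homU hr hrM ℂ (periodHomPair M (g, g')) =
      periodHomPair M (CuspForm.heckeULin 2 hrM g, CuspForm.heckeULin 2 hrM g') := by
  rw [Periods.periodHomPair_eq]
  simp only [LinearMap.coprod_apply, LinearMap.comp_apply, LinearMap.add_apply,
    LinearMap.sub_apply, LinearMap.id_apply, Periods.periodMapLin_apply, map_add, map_sub,
    Periods.periodMap_heckeULin hr hrM, Periods.charInvolution_homU]

/-- Every parabolic class is the period class of a pair of cusp forms. -/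
theorem exists_periodHomPair {v : Additive (Gamma0 M) →+ ℂ}
    (hv : v ∈ parabolicHoms ℂ (Gamma0 M) ℂ) : ∃ g g', periodHomPair M (g, g') = v := by
  rw [← HeckeDuality.range_periodHomPair M] at hv
  obtain ⟨⟨g, g'⟩, e⟩ := hv
  exact ⟨g, g', e⟩

end Pair

/-! ## The classes killed by both degeneracy operators -/

section Kernel

variable {q N : ℕ} [NeZero N] [NeZero (N * q)] (h : RaiseData q N)

/-- The parabolic classes killed by both degeneracy operators. -/
def kernelSpace : Submodule ℂ (Additive (Gamma0 (N * q)) →+ ℂ) :=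
  parabolicHoms ℂ (Gamma0 (N * q)) ℂ ⊓ LinearMap.ker (h.corSys.op ℂ) ⊓
    LinearMap.ker (h.starSys.op ℂ)

omit [NeZero N] [NeZero (N * q)] in
/-- The kernel space consists of the parabolic classes killed by both operators. -/
theorem mem_kernelSpace {v : Additive (Gamma0 (N * q)) →+ ℂ} :
    v ∈ kernelSpace h ↔ v ∈ parabolicHoms ℂ (Gamma0 (N * q)) ℂ ∧ h.corSys.apply v = 0 ∧
      h.starSys.apply v = 0 := by
  simp only [kernelSpace, Submodule.mem_inf, LinearMap.mem_ker, and_assoc]
  rfl

/-- The operators `T_r`, `r ∤ N q`, preserve the kernel space. -/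
theorem homT_mem_kernelSpace {r : ℕ} (hr : r.Prime) (hrM : ¬ r ∣ N * q)
    {v : Additive (Gamma0 (N * q)) →+ ℂ} (hv : v ∈ kernelSpace h) :
    homT hr hrM ℂ v ∈ kernelSpace h := by
  obtain ⟨h0, h1, h2⟩ := (mem_kernelSpace h).mp hv
  have hrN : ¬ r ∣ N := fun hd => hrM (hd.mul_right q)
  refine (mem_kernelSpace h).mpr ⟨homT_mem_parabolicHoms hr hrM ℂ h0, ?_, ?_⟩
  · rw [← h.homT_cor (by norm_num) (by simp) hr hrN hrM, h1, map_zero]
  · rw [← h.homT_star (by norm_num) (by simp) hr hrN hrM, h2, map_zero]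

omit [NeZero N] in
/-- The operators `T_r`, `r ∤ N q`, commute on the kernel space. -/
theorem homT_comm_kernelSpace {r r' : ℕ} (hr : r.Prime) (hrM : ¬ r ∣ N * q) (hr' : r'.Prime)
    (hrM' : ¬ r' ∣ N * q) {v : Additive (Gamma0 (N * q)) →+ ℂ} (hv : v ∈ kernelSpace h) :
    homT hr hrM ℂ (homT hr' hrM' ℂ v) = homT hr' hrM' ℂ (homT hr hrM ℂ v) := by
  obtain ⟨g, g', rfl⟩ := exists_periodHomPair ((mem_kernelSpace h).mp hv).1
  simp only [homT_periodHomPair]
  have hc := CuspForm.heckeTLin_comm (N := N * q) 2 hr hrM hr' hrM'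
  rw [show CuspForm.heckeTLin 2 hr hrM (CuspForm.heckeTLin 2 hr' hrM' g) =
      CuspForm.heckeTLin 2 hr' hrM' (CuspForm.heckeTLin 2 hr hrM g) from LinearMap.congr_fun hc g,
    show CuspForm.heckeTLin 2 hr hrM (CuspForm.heckeTLin 2 hr' hrM' g') =
      CuspForm.heckeTLin 2 hr' hrM' (CuspForm.heckeTLin 2 hr hrM g') from LinearMap.congr_fun hc g']

omit [NeZero N] in
/-- A system of eigenvalues on the kernel gives a normalised eigenform. -/
theorem exists_eigenform_of_kernel {v : Additive (Gamma0 (N * q)) →+ ℂ} (hv : v ∈ kernelSpace h)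
    (hv0 : v ≠ 0) (lam : ℕ → ℂ)
    (hlam : ∀ (r : ℕ) (hr : r.Prime) (hrM : ¬ r ∣ N * q), homT hr hrM ℂ v = lam r • v) :
    ∃ g : CuspForm (Gamma0 (N * q)) 2, g.IsNormalizedEigenform ∧ qCoeff g q ^ 2 = 1 ∧
      ∀ r, r.Prime → ¬ r ∣ N * q → qCoeff g r = lam r := by
  obtain ⟨hpar, hc, hs⟩ := (mem_kernelSpace h).mp hv
  have hqd : q ∣ N * q := dvd_mul_left q N
  have hUU := h.homU_sq_eq ℂ hc hs
  obtain ⟨g1, g2, rfl⟩ := exists_periodHomPair hpar
  have hinj := periodHomPair_injective (N * q)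
  have hT : ∀ (r : ℕ) (hr : r.Prime) (hrM : ¬ r ∣ N * q),
      CuspForm.heckeTLin 2 hr hrM g1 = lam r • g1 ∧ CuspForm.heckeTLin 2 hr hrM g2 =
          lam r • g2 := by
    intro r hr hrM
    have e := hlam r hr hrM
    rw [homT_periodHomPair, ← map_smul, Prod.smul_mk] at e
    exact Prod.mk.injEq .. ▸ hinj e
  have hU : CuspForm.heckeULin 2 hqd (CuspForm.heckeULin 2 hqd g1) = g1 ∧
      CuspForm.heckeULin 2 hqd (CuspForm.heckeULin 2 hqd g2) = g2 := by
    rw [homU_periodHomPair, homU_periodHomPair] at hUU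
    exact Prod.mk.injEq .. ▸ hinj hUU
  -- One of the two forms is a nonzero eigenform away from `N q` on which `U_q` squares to one.
  obtain ⟨g, hg0, hgT, hgU⟩ : ∃ g : CuspForm (Gamma0 (N * q)) 2, g ≠ 0 ∧
      (∀ (r : ℕ) (hr : r.Prime) (hrM : ¬ r ∣ N * q), CuspForm.heckeTLin 2 hr hrM g = lam r • g) ∧
      CuspForm.heckeULin 2 hqd (CuspForm.heckeULin 2 hqd g) = g := by
    by_cases h1 : g1 = 0
    · refine ⟨g2, fun h2 => hv0 ?_, fun r hr hrM => (hT r hr hrM).2, hU.2⟩
      rw [h1, h2, ← Prod.zero_eq_mk, map_zero]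
    · exact ⟨g1, h1, fun r hr hrM => (hT r hr hrM).1, hU.1⟩
  have : FiniteDimensional ℂ (CuspForm (Gamma0 (N * q)) 2) :=
    IntegralStructure.finiteDimensional_cuspForm (N * q) 2
  let A := ↥(CuspForm.heckeAlgebra (N * q) 2 (∅ : Set ℕ))
  let ρ : A →+* Module.End ℂ (CuspForm (Gamma0 (N * q)) 2) :=
    (CuspForm.heckeAlgebra (N * q) 2 (∅ : Set ℕ)).val.toRingHom
  have hcomm : ∀ (a b : A) (x : CuspForm (Gamma0 (N * q)) 2), ρ a (ρ b x) = ρ b (ρ a x) :=
    fun a b x => by
      rw [← Module.End.mul_apply, ← map_mul, mul_comm a b, map_mul, Module.End.mul_apply]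
  have hρT : ∀ (r : ℕ) (hr : r.Prime) (hrM : ¬ r ∣ N * q),
      ρ (HeckeDuality.heckeOp (N * q) 2 r hr) = CuspForm.heckeTLin 2 hr hrM := fun r hr hrM => by
    show (HeckeDuality.heckeOp (N * q) 2 r hr).1 = _
    rw [HeckeDuality.heckeOp, dif_neg hrM, CuspForm.heckeAlgebra.coe_T]
  have hρU : ρ (HeckeDuality.heckeOp (N * q) 2 q h.prime) = CuspForm.heckeULin 2 hqd := by
    show (HeckeDuality.heckeOp (N * q) 2 q h.prime).1 = _
    rw [HeckeDuality.heckeOp, dif_pos hqd, CuspForm.heckeAlgebra.coe_U]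
  -- The forms with these eigenvalues on which `U_q` squares to one form a stable space, so it
  -- contains an eigenvector of the whole Hecke algebra.
  let E : Submodule ℂ (CuspForm (Gamma0 (N * q)) 2) :=
    { carrier := {x | (∀ (r : ℕ) (hr : r.Prime), ¬ r ∣ N * q →
          ρ (HeckeDuality.heckeOp (N * q) 2 r hr) x = lam r • x) ∧
        ρ (HeckeDuality.heckeOp (N * q) 2 q h.prime)
          (ρ (HeckeDuality.heckeOp (N * q) 2 q h.prime) x) = x}
      zero_mem' := ⟨fun r hr _ => by simp, by simp⟩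
      add_mem' := fun {x y} hx hy => ⟨fun r hr hrM => by
          rw [map_add, hx.1 r hr hrM, hy.1 r hr hrM, smul_add],
        by rw [map_add, map_add, hx.2, hy.2]⟩
      smul_mem' := fun c x hx => ⟨fun r hr hrM => by
          rw [map_smul, hx.1 r hr hrM, smul_comm],
        by rw [map_smul, map_smul, hx.2]⟩ }
  have hgE : g ∈ E := ⟨fun r hr hrM => by rw [hρT r hr hrM]; exact hgT r hr hrM,
    by rw [hρU]; exact hgU⟩
  have hEne : E ≠ ⊥ := fun h0 => hg0 <| by
    rw [h0, Submodule.mem_bot] at hgE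
    exact hgE
  have hEinv : ∀ a, ∀ x ∈ E, ρ a x ∈ E := fun a x hx => ⟨fun r hr hrM => by
      rw [hcomm, hx.1 r hr hrM, map_smul], by
      rw [hcomm _ a, hcomm _ a, hx.2]⟩
  obtain ⟨θ, w, hwE, hw0, hθ⟩ := HeckeDuality.exists_eigenCharacter ρ E hEne hEinv
  obtain ⟨-, hnorm, hcoeff⟩ := HeckeDuality.isNormalizedEigenform_of_eigen hw0
    (fun r => if hr : r.Prime then θ (HeckeDuality.heckeOp (N * q) 2 r hr) else 0)
    (fun r hr => by simp only [dif_pos hr]; exact hθ _)
  refine ⟨_, hnorm, ?_, fun r hr hrM => ?_⟩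
  · rw [hcoeff q h.prime, dif_pos h.prime]
    have e := hwE.2
    rw [hθ, map_smul, hθ, smul_smul, ← sq] at e
    exact smul_left_injective ℂ hw0 (e.trans (one_smul ℂ w).symm)
  · rw [hcoeff r hr, dif_pos hr]
    exact smul_left_injective ℂ hw0 ((hθ _).symm.trans (hwE.1 r hr hrM))

end Kernel

end Fermat.Agent.LevelRaising
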