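import Fermat.Agent.LevelRaising.Residual
import Fermat.Agent.LevelRaising.Lattice.Kernel
import Fermat.Agent.LevelRaising.Lattice.Minimal
import Fermat.Agent.LevelRaising.NewEigenform
import Fermat.Agent.ConductorLevel.Eigen
import Fermat.Prelude.Def_FreyPackage_LevelRaising

/-!
# Raising the level

`exists_newAt_congruentEigenform`: if an eigenform `f` of level `N` is congruent modulo `𝔪 ∣ p` to
an elliptic curve with irreducible `p`-torsion, `p ≠ 2`, and `a_q² ≡ (q + 1)²` for a prime `q ∤ N`,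
there is a congruent eigenform of level `N q` which is new at `q`. It is used for S41. The proof:

1. A valuation ring `B` of `ℂ` lies over `𝔪`, and the periods of `f` give a parabolic class on
   `Γ₀(N)` with values in `B`, nonzero modulo the maximal ideal (`LevelRaising/Lattice/Basic`).
2. Irreducibility gives an auxiliary prime `ℓ`, congruent to `1` modulo the levels and `p`, with
   `a_ℓ ≢ 2 = 1 + ℓ` (`LevelRaising/Residual`).
3. The degeneracy operators between the levels `N` and `N q` commute with the `T_r`, `r ∤ N q`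
   (`Symbols`, `Transfer`, `Equivariant`, `Operators`, `Commute`). Ihara's lemma: modulo `p` no
   `res w + e • conj w` vanishes for a nonzero parabolic `w` on which `T_ℓ - 1 - ℓ` is a nonzero
   scalar, and the dual statement (`IharaK`, from the congruence subgroup property of
   `SL(2, ℤ[1/q])`: `AwaySL2`, `Generate`, `GoodPrimes`, `Twist`, `CentralExt`, `PLocal`,
   `Congruence`, `Cusps`, `Parabolic`).
4. As `q + 1 ± a_q ≡ 0`, some integral parabolic class of level `N q` killed by both operators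
   then has a nonzero reduction modulo the maximal ideal, on which the `T_r`, `r ∤ N q`, act by the
   reduced eigenvalues of `f` (`LevelRaising/Lattice/Kernel`).
5. These eigenvalues lift to a system on the classes killed by both operators
   (`LevelRaising/Lattice/Minimal`), which is that of an eigenform with `a_q ^ 2 = 1`, that is, new
   at `q` (`LevelRaising/NewEigenform`).

## References

* K. Ribet, *Congruence relations between modular forms*, Proceedings of the ICM (1983).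
* F. Diamond, R. Taylor, *Non-optimal levels of mod l modular representations*, Invent. Math.
  (1994).

The argument is Ribet's, run on parabolic homomorphisms of `Γ₀(N)` through periods; Ihara's lemma
is proved by group theory in `SL(2)`, and Jacobians are not used.
-/

set_option autoImplicit false

noncomputable section

namespace Fermat.Agent.LevelRaising

open CongruenceSubgroup Fermat.Agent.Periods ModularFormClass
open ModularCurve ModularCurve.Period

/-! ## The inputs of steps 1, 2, 4 and 5 -/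

/-- A valuation ring of `ℂ` through which the reduction at a maximal ideal `𝔪` factors. -/
private theorem exists_valuationRing_reduction (𝔪 : Ideal (integralClosure ℤ ℂ))
    (hmax : 𝔪.IsMaximal) :
    ∃ (B : ValuationSubring ℂ) (ι : integralClosure ℤ ℂ →+* B),
      ∀ a, ((ι a : B) : ℂ) = (a : ℂ) ∧ (IsLocalRing.residue B (ι a) = 0 ↔ a ∈ 𝔪) := by
  obtain ⟨B, hAB, hmB⟩ := Ideal.image_subset_nonunits_valuationSubring
    (A := (integralClosure ℤ ℂ).toSubring) 𝔪 hmax.ne_top
  let ι : integralClosure ℤ ℂ →+* B :=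
    (integralClosure ℤ ℂ).val.toRingHom.codRestrict B.toSubring fun a => hAB a.2
  refine ⟨B, ι, fun a => ⟨rfl, ?_⟩⟩
  rw [IsLocalRing.residue_eq_zero_iff]
  have hle : 𝔪 ≤ (IsLocalRing.maximalIdeal B).comap ι := fun x hx =>
    ValuationSubring.coe_mem_nonunits_iff.mp (hmB ⟨x, hx, rfl⟩)
  have hne : (IsLocalRing.maximalIdeal B).comap ι ≠ ⊤ :=
    Ideal.comap_ne_top _ (IsLocalRing.maximalIdeal.isMaximal B).ne_top
  rw [hmax.eq_of_le hne hle]
  rfl

open WeierstrassCurve WeierstrassCurve.Affine WeierstrassCurve.Affine.Point in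
/-- For odd `p` and irreducible `E[p]`, an auxiliary prime `ℓ`, congruent to `1` mod `p`, with
`a_ℓ ≢ 2 (mod p)`. -/
private theorem exists_auxPrime
    {E : WeierstrassCurve ℚ} [E.IsElliptic] {W : WeierstrassCurve ℤ} (hW : W.IsIntegralModelOf E)
    {p N q : ℕ} (hp : p.Prime) (hp2 : p ≠ 2) (hN : 0 < N) (hq : q.Prime)
    (hirr : GaloisRepIsIrreducible (K := AlgebraicClosure ℚ) ℚ E p) :
    ∃ ℓ : ℕ, AuxPrime q N ℓ ∧ W.IsGoodPrimeFor ℓ ∧ ℓ ≠ p ∧ (p : ℤ) ∣ (ℓ : ℤ) - 1 ∧
      ¬ (p : ℤ) ∣ W.apOfModel ℓ - 2 := by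
  have hM : levelM q N * (N * q) * p ≠ 0 :=
    mul_ne_zero (mul_ne_zero (levelM_ne_zero hN.ne') (mul_ne_zero hN.ne' hq.ne_zero)) hp.ne_zero
  obtain ⟨ℓ, hℓ, hgood, hℓp, hℓM, hℓ1, hℓa⟩ := exists_special_prime hW hp hp2 hirr _ hM
  exact ⟨ℓ, ⟨hℓ, fun hd => hℓM ((hd.mul_left _).mul_right _),
    (Int.natCast_dvd_natCast.mpr ((dvd_mul_right _ _).mul_right _)).trans hℓ1,
    (Int.natCast_dvd_natCast.mpr ((dvd_mul_left _ _).mul_right _)).trans hℓ1⟩, hgood, hℓp,
    (Int.natCast_dvd_natCast.mpr (dvd_mul_left p _)).trans hℓ1, hℓa⟩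

/-- A normalised eigenform has an integral period class with nonzero reduction and the same
eigenvalues. -/
private theorem exists_integral_periodClass {N : ℕ} [NeZero N] (B : ValuationSubring ℂ)
    {f : CuspForm (Gamma0 N) 2} (hf : f.IsNormalizedEigenform) (ev : ℕ → B)
    (hev : ∀ r : ℕ, r.Prime → ((ev r : B) : ℂ) = qCoeff f r) :
    ∃ w : Additive (Gamma0 N) →+ B, IsParabolicHom (Gamma0 N) w ∧ redH B w ≠ 0 ∧
      ∀ (r : ℕ) (hr : r.Prime) (hrN : ¬ r ∣ N), homT hr hrN B w = ev r • w := by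
  have hf0 : f ≠ 0 := fun h0 => by
    have := hf.qCoeff_one
    rw [h0, show qCoeff ⇑(0 : CuspForm (Gamma0 N) 2) 1 =
      0 from _root_.map_zero (HeckeDuality.coeffLin N 2 1)]
      at this
    exact zero_ne_one this
  have hv0 : periodMapLin N f ≠ 0 := fun h0 =>
    hf0 (periodMapLin_injective (h0.trans (_root_.map_zero _).symm))
  obtain ⟨g0, w, hw1, hs, hvw⟩ := exists_normalized (B := B) (periodMapLin N f) hv0
  set s := periodMapLin N f (Additive.ofMul g0)
  have hinc : inclH B w = s⁻¹ • periodMapLin N f := by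
    rw [hvw, smul_smul, inv_mul_cancel₀ hs, one_smul]
  refine ⟨w, fun γ hγ => Subtype.ext ?_, fun h0 => ?_, fun r hr hrN => ?_⟩
  · show inclH B w (Additive.ofMul γ) = (0 : ℂ)
    rw [hinc, AddMonoidHom.smul_apply,
      (mem_parabolicHoms_iff (R := ℂ)).mp (periodMap_mem_parabolicHoms f) γ hγ |>
        fun e => (show periodMapLin N f (Additive.ofMul γ) = 0 from e), smul_zero]
  · have := DFunLike.congr_fun h0 (Additive.ofMul g0)
    rw [redH_apply, hw1, map_one] at this
    exact one_ne_zero this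
  · apply inclH_injective
    rw [inclH_smul, hev r hr, ← homT_inclH, hinc, map_smul]
    rw [show homT hr hrN ℂ (periodMapLin N f) = periodMapLin N (CuspForm.heckeTLin 2 hr hrN f) from
      (periodMap_heckeTLin hr hrN f).symm,
      HeckeDuality.heckeTLin_apply_of_isNormalizedEigenform hf hr hrN, map_smul, smul_comm]

/-- If `ℓ ≡ 1` and `a ≢ 2` mod `p`, the reduction of a lift of `a` is not that of `1 + ℓ`. -/
private theorem residue_sub_one_add_ne_zero {B : ValuationSubring ℂ} {p : ℕ}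
    [CharP (IsLocalRing.ResidueField B) p] {x : B} {a : ℤ} {ℓ : ℕ}
    (hx : IsLocalRing.residue B x = (a : IsLocalRing.ResidueField B))
    (hℓ : (p : ℤ) ∣ (ℓ : ℤ) - 1) (ha : ¬ (p : ℤ) ∣ a - 2) :
    IsLocalRing.residue B (x - (1 + ℓ)) ≠ 0 := by
  have hℓ' : IsLocalRing.residue B (ℓ : B) = 1 := by
    have := (CharP.intCast_eq_zero_iff (IsLocalRing.ResidueField B) p _).mpr hℓ
    push_cast at this
    rw [map_natCast]
    exact sub_eq_zero.mp this
  rw [map_sub, map_add, map_one, hℓ', hx, sub_ne_zero]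
  intro h2
  refine ha ((CharP.intCast_eq_zero_iff (IsLocalRing.ResidueField B) p _).mp ?_)
  rw [Int.cast_sub, h2]
  norm_num

/-- If `b² ≡ (q + 1)²` modulo a prime ideal, then `q + 1 + e b` reduces to `0` for a sign `e`. -/
private theorem exists_sign {B : ValuationSubring ℂ} {𝔪 : Ideal (integralClosure ℤ ℂ)}
    (h𝔪 : 𝔪.IsPrime) (ι : integralClosure ℤ ℂ →+* B)
    (hιm : ∀ a, IsLocalRing.residue B (ι a) = 0 ↔ a ∈ 𝔪) {q : ℕ} {b : integralClosure ℤ ℂ}
    (hbm : b ^ 2 - ((q : integralClosure ℤ ℂ) + 1) ^ 2 ∈ 𝔪) :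
    ∃ e : ℤ, e * e = 1 ∧
      IsLocalRing.residue B (((q : B) + 1) + (e : B) * ι b) = 0 := by
  have : (b - ((q : integralClosure ℤ ℂ) + 1)) * (b + ((q : integralClosure ℤ ℂ) + 1)) ∈ 𝔪 := by
    convert hbm using 1
    ring
  rcases h𝔪.mem_or_mem this with h1 | h1 <;> have h1' := (hιm _).mpr h1
  · refine ⟨-1, rfl, ?_⟩
    simp only [map_add, map_sub, map_mul, map_natCast, map_one, Int.cast_neg, Int.cast_one,
      map_neg] at h1' ⊢
    linear_combination -h1'
  · refine ⟨1, rfl, ?_⟩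
    simp only [map_add, map_mul, map_natCast, map_one, Int.cast_one] at h1' ⊢
    linear_combination h1'

/-- An integral parabolic class killed by both degeneracy operators lies in the kernel space. -/
private theorem inclH_mem_kernelSpace {q N : ℕ} (h : RaiseData q N)
    {B : ValuationSubring ℂ} {k0 : Additive (Gamma0 (N * q)) →+ B}
    (hc : h.corSys.apply k0 = 0) (hst : h.starSys.apply k0 = 0)
    (hkpar : IsParabolicHom (Gamma0 (N * q)) k0) : inclH B k0 ∈ kernelSpace h := by
  refine (mem_kernelSpace h).mpr ⟨fun γ hγ => ?_, ?_, ?_⟩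
  · rw [inclH_apply, hkpar γ hγ]
    rfl
  · rw [inclH, AddMonoidHom.compHom_apply_apply, HeckeSystem.apply_comp, hc,
      AddMonoidHom.comp_zero]
  · rw [inclH, AddMonoidHom.compHom_apply_apply, HeckeSystem.apply_comp, hst,
      AddMonoidHom.comp_zero]

/-! ## Raising the level -/

open WeierstrassCurve WeierstrassCurve.Affine WeierstrassCurve.Affine.Point in
/-- Level raising at `q ∤ N`: if an eigenform of level `N` congruent mod `𝔪 ∣ p`, `p` odd, to an
elliptic curve with irreducible `p`-torsion has `a_q ^ 2 ≡ (q + 1) ^ 2`, some congruent eigenform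
of level `N q` is new at `q`. -/
theorem exists_newAt_congruentEigenform
    (E : WeierstrassCurve ℚ) [E.IsElliptic] {W : WeierstrassCurve ℤ} (hW : W.IsIntegralModelOf E)
    {p N q : ℕ} (hp : p.Prime) (hp2 : p ≠ 2) (hN : 0 < N) (hq : q.Prime) (hqN : ¬ q ∣ N)
    (hirr : GaloisRepIsIrreducible (K := AlgebraicClosure ℚ) ℚ E p)
    (f : CuspForm (CongruenceSubgroup.Gamma0 N) 2) (𝔪 : Ideal (integralClosure ℤ ℂ))
    (hf : f.IsNormalizedEigenform) (hmax : 𝔪.IsMaximal) (hpm : (p : integralClosure ℤ ℂ) ∈ 𝔪)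
    (hcong : ∀ ℓ : ℕ, ℓ.Prime → W.IsGoodPrimeFor ℓ → ¬ ℓ ∣ N → ℓ ≠ p →
      ∃ a : integralClosure ℤ ℂ, (a : ℂ) = ModularFormClass.qCoeff f ℓ ∧
        a - ((W.apOfModel ℓ : ℤ) : integralClosure ℤ ℂ) ∈ 𝔪)
    (hLR : ∃ a : integralClosure ℤ ℂ, (a : ℂ) = ModularFormClass.qCoeff f q ∧
      a ^ 2 - ((q : integralClosure ℤ ℂ) + 1) ^ 2 ∈ 𝔪) :
    ∃ g : CuspForm (CongruenceSubgroup.Gamma0 (N * q)) 2,
      g.IsNormalizedEigenform ∧
      (∀ ℓ : ℕ, ℓ.Prime → W.IsGoodPrimeFor ℓ → ¬ ℓ ∣ N * q → ℓ ≠ p →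
        ∃ a : integralClosure ℤ ℂ, (a : ℂ) = ModularFormClass.qCoeff g ℓ ∧
          a - ((W.apOfModel ℓ : ℤ) : integralClosure ℤ ℂ) ∈ 𝔪) ∧
      g.IsNewAt q := by
  classical
  have : NeZero N := ⟨hN.ne'⟩
  have : NeZero (N * q) := ⟨mul_ne_zero hN.ne' hq.ne_zero⟩
  have h : RaiseData q N := ⟨hq, hqN⟩
  -- Step 1: the valuation ring `B` over `𝔪`.
  obtain ⟨B, ι, hι⟩ := exists_valuationRing_reduction 𝔪 hmax
  have hιm := fun a => (hι a).2
  have hpB : (p : B) ∈ IsLocalRing.maximalIdeal B := by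
    rw [← IsLocalRing.residue_eq_zero_iff, ← map_natCast ι]
    exact (hιm _).mpr hpm
  have := charP_residueField hp hpB
  -- Step 2: the auxiliary prime `ℓ`.
  obtain ⟨ℓ, a, hgood, hℓp, hℓ1, hℓa⟩ := exists_auxPrime hW hp hp2 hN hq hirr
  -- Step 1: the eigenvalues `ev` of `f` in `B` and an integral class `w` with these eigenvalues.
  let ev : ℕ → B := fun r =>
    if hr : r.Prime then ι ⟨qCoeff f r, ConductorLevel.isIntegral_qCoeff hf hr⟩ else 0
  have hev : ∀ (r : ℕ), r.Prime → ((ev r : B) : ℂ) = qCoeff f r := fun r hr => by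
    simp only [ev, dif_pos hr]
    exact (hι _).1
  have hev' : ∀ (r : ℕ), r.Prime → ∀ b : integralClosure ℤ ℂ, (b : ℂ) = qCoeff f r → ev r = ι b :=
    fun r hr b hb => Subtype.ext ((hev r hr).trans (hb.symm.trans (hι b).1.symm))
  obtain ⟨w, hwpar, hw0, heig⟩ := exists_integral_periodClass B hf ev hev
  -- Modulo `𝔪` we have `a_ℓ ≢ 1 + ℓ` and `q + 1 + e a_q ≡ 0` for a sign `e`.
  have hℓev : IsLocalRing.residue B (ev ℓ - (1 + ℓ)) ≠ 0 := by
    obtain ⟨b, hb, hbm⟩ := hcong ℓ a.prime hgood a.not_dvd_left hℓp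
    refine residue_sub_one_add_ne_zero (sub_eq_zero.mp ?_) hℓ1 hℓa
    rw [hev' ℓ a.prime b hb]
    simpa only [map_sub, map_intCast] using (hιm _).mpr hbm
  obtain ⟨b, hb, hbm⟩ := hLR
  obtain ⟨e, he, hqev⟩ := exists_sign hmax.isPrime ι hιm hbm
  rw [← hev' q hq b hb] at hqev
  -- Steps 3 and 4: a class `k0` killed by both operators with the eigenvalues of `f` mod `𝔪`.
  obtain ⟨k0, hc, hst, hkpar, hk0, hkeig⟩ :=
    exists_kernel_class h a hp hp2 hpB w hwpar hw0 ev heig hℓev e he hqev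
  -- Step 5: an eigenvector `v` lifting them, and its eigenform `g`.
  obtain ⟨v, hvW, hv0', hvlam⟩ := exists_congruent_eigenvector B (kernelSpace h)
    (fun r hr hrM v hv => homT_mem_kernelSpace h hr hrM hv)
    (fun r hr hrM r' hr' hrM' v hv => homT_comm_kernelSpace h hr hrM hr' hrM' hv)
    k0 (inclH_mem_kernelSpace h hc hst hkpar) hk0 (fun r => IsLocalRing.residue B (ev r)) hkeig
  choose lam hlam hlamθ using hvlam
  obtain ⟨g, hg, hgq, hgr⟩ := exists_eigenform_of_kernel h hvW hv0'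
    (fun r => if hr : r.Prime ∧ ¬ r ∣ N * q then (lam r hr.1 hr.2 : ℂ) else 0)
    (fun r hr hrM => by simp only [dif_pos (And.intro hr hrM)]; exact hlam r hr hrM)
  refine ⟨g, hg, fun r hr hgoodr hrM hrp => ?_, hgq⟩
  -- `g` and `f`, hence `g` and the curve, are congruent at `r`.
  obtain ⟨af, haf, hafm⟩ := hcong r hr hgoodr (fun hd => hrM (hd.mul_right q)) hrp
  let ag : integralClosure ℤ ℂ := ⟨qCoeff g r, ConductorLevel.isIntegral_qCoeff hg hr⟩
  refine ⟨ag, rfl, (hιm _).mp ?_⟩
  have e1 : ι ag = lam r hr hrM := Subtype.ext <| by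
    rw [(hι _).1]
    show qCoeff g r = _
    rw [hgr r hr hrM, dif_pos ⟨hr, hrM⟩]
  have e2 := (hιm _).mpr hafm
  rw [map_sub, map_sub] at e2 ⊢
  rwa [e1, hlamθ r hr hrM, hev' r hr af haf]

end Fermat.Agent.LevelRaising
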