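import Fermat.Agent.Periods.Hecke

/-!
# Integral matrices as coset representatives; comparison of double coset operators
-/

set_option autoImplicit false

noncomputable section

namespace Fermat.Agent.LevelRaising

open CongruenceSubgroup Function Fermat.Agent.Periods
open Matrix.SpecialLinearGroup
open P2MW.S_ModularForm_heckeT_slash_eq_self_of_mem_Gamma0.ModularForm.HeckeSlashInvariance
open scoped MatrixGroups

/-- An integral matrix with nonzero determinant as an element of `GL(2, ℝ)`. -/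
def intGL (A : Matrix (Fin 2) (Fin 2) ℤ) : GL (Fin 2) ℝ :=
  if h : A.det ≠ 0 then
    Matrix.GeneralLinearGroup.mkOfDetNeZero (A.map fun x : ℤ => (x : ℝ)) (by
      rw [show (A.map fun x : ℤ => (x : ℝ)) = (Int.castRingHom ℝ).mapMatrix A from rfl,
        ← RingHom.map_det]
      exact Int.cast_ne_zero.mpr h)
  else 1

/-- For nonzero determinant, `intGL A` has the entries of `A`. -/
theorem intGL_val {A : Matrix (Fin 2) (Fin 2) ℤ} (h : A.det ≠ 0) :
    (intGL A : Matrix (Fin 2) (Fin 2) ℝ) = A.map fun x : ℤ => (x : ℝ) := by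
  rw [intGL, dif_pos h]; rfl

theorem det_intGL {A : Matrix (Fin 2) (Fin 2) ℤ} (h : A.det ≠ 0) :
    (intGL A).det.val = (A.det : ℝ) := by
  rw [Matrix.GeneralLinearGroup.val_det_apply, intGL_val h]
  exact ((Int.castRingHom ℝ).map_det A).symm

/-- An integral matrix of positive determinant has positive determinant in `GL₂(ℝ)`. -/
theorem det_intGL_pos {A : Matrix (Fin 2) (Fin 2) ℤ} (h : 0 < A.det) :
    0 < (intGL A).det.val := by
  rw [det_intGL h.ne']; exact_mod_cast h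

theorem intGL_inj {A B : Matrix (Fin 2) (Fin 2) ℤ} (hA : A.det ≠ 0) (hB : B.det ≠ 0)
    (h : intGL A = intGL B) : A = B := by
  have := congrArg Units.val h
  rw [intGL_val hA, intGL_val hB] at this
  exact Matrix.map_injective Int.cast_injective this

/-- Integral matrices multiply as elements of `GL(2, ℝ)`. -/
theorem intGL_mul {A B : Matrix (Fin 2) (Fin 2) ℤ} (hA : A.det ≠ 0) (hB : B.det ≠ 0) :
    intGL (A * B) = intGL A * intGL B := by
  apply Units.ext
  rw [Units.val_mul, intGL_val hA, intGL_val hB,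
    intGL_val (by rw [Matrix.det_mul]; exact mul_ne_zero hA hB)]
  exact Matrix.map_mul (f := Int.castRingHom ℝ)

/-- On `SL₂(ℤ)` the two embeddings in `GL₂(ℝ)` agree. -/
theorem mapGL_eq_intGL (g : SL(2, ℤ)) :
    mapGL ℝ g = intGL (g : Matrix (Fin 2) (Fin 2) ℤ) := by
  apply Units.ext
  rw [intGL_val (by simp [g.det_coe]), Matrix.SpecialLinearGroup.mapGL_coe_matrix]
  rfl

theorem intGL_scalar_comm {n : ℤ} (hn : n ≠ 0) (x : GL (Fin 2) ℝ) :
    intGL !![n, 0; 0, n] * x = x * intGL !![n, 0; 0, n] := by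
  apply Units.ext
  rw [Units.val_mul, Units.val_mul, intGL_val (by simp [Matrix.det_fin_two_of, hn])]
  ext i j
  fin_cases i <;> fin_cases j <;> simp [Matrix.mul_apply, Fin.sum_univ_two, mul_comm]

/-- An equality of integral matrices is one of elements of `GL(2, ℝ)`. -/
theorem mul_mapGL_eq {A B : Matrix (Fin 2) (Fin 2) ℤ} (hA : A.det ≠ 0) (hB : B.det ≠ 0)
    (g c : SL(2, ℤ))
    (h : A * (g : Matrix (Fin 2) (Fin 2) ℤ) = (c : Matrix (Fin 2) (Fin 2) ℤ) * B) :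
    intGL A * mapGL ℝ g = mapGL ℝ c * intGL B := by
  rw [mapGL_eq_intGL, mapGL_eq_intGL, ← intGL_mul hA (by simp [g.det_coe]),
    ← intGL_mul (by simp [c.det_coe]) hB, h]

/-- An identity in `GL(2, ℝ)` between integral matrices holds over `ℤ`. -/
theorem of_mul_mapGL_eq {A B : Matrix (Fin 2) (Fin 2) ℤ} (hA : A.det ≠ 0) (hB : B.det ≠ 0)
    (g c : SL(2, ℤ)) (h : intGL A * mapGL ℝ g = mapGL ℝ c * intGL B) :
    A * (g : Matrix (Fin 2) (Fin 2) ℤ) = (c : Matrix (Fin 2) (Fin 2) ℤ) * B := by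
  rw [mapGL_eq_intGL, mapGL_eq_intGL, ← intGL_mul hA (by simp [g.det_coe]),
    ← intGL_mul (by simp [c.det_coe]) hB] at h
  exact intGL_inj (by simp [g.det_coe, hA]) (by simp [c.det_coe, hB]) h

/-- A coset relation in `GL(2, ℝ)` between integral matrices holds over `ℤ`. -/
theorem eq_mul_of_intGL {A B : Matrix (Fin 2) (Fin 2) ℤ} (hA : A.det ≠ 0) (hB : B.det ≠ 0)
    (c : SL(2, ℤ)) (h : intGL A = mapGL ℝ c * intGL B) :
    A = (c : Matrix (Fin 2) (Fin 2) ℤ) * B := by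
  have := of_mul_mapGL_eq hA hB 1 c (by rw [map_one, mul_one]; exact h)
  simpa using this

/-- A factorisation `M = c B` with equal determinants gives an element of `Γ₀(L)`. -/
theorem exists_left {L : ℕ} {M B : Matrix (Fin 2) (Fin 2) ℤ} (hB : B.det ≠ 0)
    (hdet : M.det = B.det) (c : Matrix (Fin 2) (Fin 2) ℤ) (h : M = c * B)
    (hc : (L : ℤ) ∣ c 1 0) :
    ∃ γ : Gamma0 L, ((γ : SL(2, ℤ)) : Matrix (Fin 2) (Fin 2) ℤ) = c ∧
      intGL M = mapGL ℝ (γ : SL(2, ℤ)) * intGL B := by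
  have hdc : c.det = 1 := by
    have e := congrArg Matrix.det h
    rw [Matrix.det_mul, hdet] at e
    exact mul_right_cancel₀ hB (e.symm.trans (one_mul _).symm)
  refine ⟨⟨⟨c, hdc⟩, ?_⟩, rfl, ?_⟩
  · rw [Gamma0_mem, ZMod.intCast_zmod_eq_zero_iff_dvd]
    exact hc
  · rw [mapGL_eq_intGL, ← intGL_mul (by simp [hdc]) hB]
    exact congrArg intGL h

theorem heckeMatrix_eq_intGL {q : ℕ} (hq : q ≠ 0) (x : ℕ) :
    ModularForm.heckeMatrix q x = intGL !![1, (x : ℤ); 0, (q : ℤ)] := by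
  apply Units.ext
  rw [intGL_val (by simp [Matrix.det_fin_two_of, hq])]
  ext i j
  fin_cases i <;> fin_cases j <;> simp [hq]

theorem heckeDiagMatrix_eq_intGL {q : ℕ} (hq : q ≠ 0) :
    ModularForm.heckeDiagMatrix q = intGL !![(q : ℤ), 0; 0, 1] := by
  apply Units.ext
  rw [intGL_val (by simp [Matrix.det_fin_two_of, hq])]
  ext i j
  fin_cases i <;> fin_cases j <;> simp [hq]

/-- integral representative of `T_ℓ` -/
def tMat (ℓ : ℕ) : Option (ZMod ℓ) → Matrix (Fin 2) (Fin 2) ℤ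
  | none => !![(ℓ : ℤ), 0; 0, 1]
  | some x => !![1, (x.val : ℤ); 0, (ℓ : ℤ)]

/-- The representatives of `T_ℓ` have determinant `ℓ`. -/
theorem det_tMat (ℓ : ℕ) (i : Option (ZMod ℓ)) : (tMat ℓ i).det = ℓ := by
  cases i <;> simp [tMat, Matrix.det_fin_two_of]

/-- The representatives of the Hecke correspondence are the integral ones. -/
theorem heckeRep_eq_intGL {ℓ : ℕ} (hℓ : ℓ ≠ 0) (i : Option (ZMod ℓ)) :
    heckeRep ℓ i = intGL (tMat ℓ i) := by
  cases i
  · exact heckeDiagMatrix_eq_intGL hℓ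
  · exact heckeMatrix_eq_intGL hℓ _

/-- Every matrix of determinant `ℓ` and upper triangular modulo `L` lies in one of the cosets. -/
theorem exists_tMat_coset {L ℓ : ℕ} (hℓ : ℓ.Prime) (hL : ¬ ℓ ∣ L)
    {M : Matrix (Fin 2) (Fin 2) ℤ} (hdet : M.det = ℓ) (hM : (L : ℤ) ∣ M 1 0) :
    ∃ (γ : Gamma0 L) (i : Option (ZMod ℓ)), intGL M = mapGL ℝ (γ : SL(2, ℤ)) * intGL
    (tMat ℓ i) := by
  have : Fact ℓ.Prime := ⟨hℓ⟩
  have hcop : IsCoprime (ℓ : ℤ) (L : ℤ) :=
    (Int.isCoprime_iff_nat_coprime).mpr (by simpa using (hℓ.coprime_iff_not_dvd.mpr hL))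
  have hd : M 0 0 * M 1 1 - M 0 1 * M 1 0 = ℓ := by rw [← Matrix.det_fin_two]; exact hdet
  by_cases h : (ℓ : ℤ) ∣ M 0 0 ∧ (ℓ : ℤ) ∣ M 1 0
  · obtain ⟨⟨a, ha⟩, ⟨c, hc⟩⟩ := h
    have hLc : (L : ℤ) ∣ c := hcop.symm.dvd_of_dvd_mul_left (hc ▸ hM)
    obtain ⟨γ, -, hγ⟩ := exists_left (L := L) (M := M) (B := tMat ℓ none)
      (by simp [det_tMat, hℓ.ne_zero]) (by rw [det_tMat, hdet]) !![a, M 0 1; c, M 1 1]
      (by
        ext i j; fin_cases i <;> fin_cases j <;>
          simp [tMat, Matrix.mul_apply, Fin.sum_univ_two, ha, hc] <;> ring)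
      (by simpa using hLc)
    exact ⟨γ, none, hγ⟩
  · -- find the shift
    obtain ⟨x, hx0, hx1⟩ : ∃ x : ZMod ℓ, (M 0 1 : ZMod ℓ) = M 0 0 * x ∧
        (M 1 1 : ZMod ℓ) = M 1 0 * x := by
      have hd' : (M 0 0 : ZMod ℓ) * M 1 1 - M 0 1 * M 1 0 = 0 := by
        rw [← Int.cast_mul, ← Int.cast_mul, ← Int.cast_sub, hd, Int.cast_natCast, ZMod.natCast_self]
      by_cases ha : (M 0 0 : ZMod ℓ) = 0
      · have hc : (M 1 0 : ZMod ℓ) ≠ 0 := fun hc => h
          ⟨(ZMod.intCast_zmod_eq_zero_iff_dvd _ _).mp ha,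
           (ZMod.intCast_zmod_eq_zero_iff_dvd _ _).mp hc⟩
        refine ⟨M 1 1 / M 1 0, ?_, by field_simp⟩
        rw [ha, zero_mul] at hd' ⊢
        exact (mul_eq_zero.mp (neg_eq_zero.mp (by rwa [zero_sub] at hd'))).resolve_right hc
      · refine ⟨M 0 1 / M 0 0, by field_simp, ?_⟩
        field_simp
        linear_combination hd'
    obtain ⟨k0, hk0⟩ : (ℓ : ℤ) ∣ M 0 1 - M 0 0 * (x.val : ℤ) := by
      rw [← ZMod.intCast_zmod_eq_zero_iff_dvd]; push_cast; simp [hx0]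
    obtain ⟨k1, hk1⟩ : (ℓ : ℤ) ∣ M 1 1 - M 1 0 * (x.val : ℤ) := by
      rw [← ZMod.intCast_zmod_eq_zero_iff_dvd]; push_cast; simp [hx1]
    obtain ⟨γ, -, hγ⟩ := exists_left (L := L) (M := M) (B := tMat ℓ (some x))
      (by simp [det_tMat, hℓ.ne_zero]) (by rw [det_tMat, hdet]) !![M 0 0, k0; M 1 0, k1]
      (by
        ext i j; fin_cases i <;> fin_cases j <;>
          simp [tMat, Matrix.mul_apply, Fin.sum_univ_two, -ZMod.natCast_val]
        · linear_combination hk0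
        · linear_combination hk1)
      (by simpa using hM)
    exact ⟨γ, some x, hγ⟩

section Transfer

variable {Γ'' Γ' Γ : Subgroup SL(2, ℤ)} {ι κ ρ : Type}

/-- A family of matrices that maps to the cosets of a system has the same sums of values. -/
theorem sum_transfer [Fintype κ] (R : HeckeSystem Γ'' Γ ρ) (rep : κ → GL (Fin 2) ℝ)
    (perm : κ → κ) (hperm : Bijective perm) (coc : κ → Γ'') (γ : Γ)
    (spec : ∀ k, rep k * mapGL ℝ (γ : SL(2, ℤ)) = mapGL ℝ (coc k : SL(2, ℤ)) * rep (perm k))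
    (σ : κ → ρ) (u : κ → Γ'') (z : GL (Fin 2) ℝ) (hz : ∀ x, z * x = x * z)
    (hσ : ∀ k, rep k = z * (mapGL ℝ (u k : SL(2, ℤ)) * R.rep (σ k)))
    {A : Type*} [AddCommGroup A] (φ : Additive Γ'' →+ A) :
    ∑ k, φ (Additive.ofMul (coc k)) = ∑ k, φ (Additive.ofMul (R.cocycle γ (σ k))) := by
  have key : ∀ k, coc k * u (perm k) = u k * R.cocycle γ (σ k) := fun k => by
    refine (R.eq_of_mapGL_mul_rep (i := σ (perm k)) (j := R.perm γ (σ k)) ?_).2
    refine mul_left_cancel (a := z) ?_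
    calc z * (mapGL ℝ ((coc k * u (perm k) : Γ'') : SL(2, ℤ)) * R.rep (σ (perm k)))
        = mapGL ℝ (coc k : SL(2, ℤ)) * rep (perm k) := by
          rw [hσ (perm k), Subgroup.coe_mul, map_mul]
          simp only [← mul_assoc, hz (mapGL ℝ (coc k : SL(2, ℤ)))]
      _ = rep k * mapGL ℝ (γ : SL(2, ℤ)) := (spec k).symm
      _ = z * (mapGL ℝ (u k : SL(2, ℤ)) * R.rep (σ k) * mapGL ℝ (γ : SL(2, ℤ))) := by
          rw [hσ k, mul_assoc]
      _ = _ := by
          rw [mul_assoc (mapGL ℝ (u k : SL(2, ℤ))), R.spec, Subgroup.coe_mul, map_mul, mul_assoc]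
  have h : ∀ k, φ (Additive.ofMul (coc k)) + φ (Additive.ofMul (u (perm k)))
      = φ (Additive.ofMul (u k)) + φ (Additive.ofMul (R.cocycle γ (σ k))) := fun k => by
    simp only [← map_add, ← ofMul_mul, key k]
  have hs := Finset.sum_congr (s₁ := (Finset.univ : Finset κ)) rfl fun k _ => h k
  rw [Finset.sum_add_distrib, Finset.sum_add_distrib,
    hperm.sum_comp fun k => φ (Additive.ofMul (u k)), add_comm] at hs
  exact add_left_cancel hs

/-- Composition of two operators compared with a third. -/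
theorem comp_transfer [Fintype ι] [Fintype κ] (R : HeckeSystem Γ'' Γ ρ)
    (S₁ : HeckeSystem Γ'' Γ' κ) (S₂ : HeckeSystem Γ' Γ ι) (σ : ι → κ → ρ)
    (z : GL (Fin 2) ℝ) (hz : ∀ x, z * x = x * z)
    (hσ : ∀ i k, ∃ u : Γ'', S₁.rep k * S₂.rep i = z * (mapGL ℝ (u : SL(2, ℤ)) * R.rep (σ i k)))
    {A : Type*} [AddCommGroup A] (φ : Additive Γ'' →+ A) (γ : Γ) :
    S₂.apply (S₁.apply φ) (Additive.ofMul γ) =
      ∑ p : ι × κ, φ (Additive.ofMul (R.cocycle γ (σ p.1 p.2))) := by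
  choose u hu using hσ
  rw [HeckeSystem.apply_apply]
  simp only [HeckeSystem.apply_apply]
  rw [← Fintype.sum_prod_type']
  refine sum_transfer R (fun p : ι × κ => S₁.rep p.2 * S₂.rep p.1)
    (fun p => (S₂.perm γ p.1, S₁.perm (S₂.cocycle γ p.1) p.2)) ?_
    (fun p => S₁.cocycle (S₂.cocycle γ p.1) p.2) γ (fun p => ?_) (fun p => σ p.1 p.2)
    (fun p => u p.1 p.2) z hz (fun p => hu p.1 p.2) φ
  · refine (Finite.injective_iff_bijective).mp fun p p' h => ?_
    obtain ⟨h1, h2⟩ := Prod.mk.inj h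
    have e := S₂.perm_injective γ h1
    rw [e] at h2
    exact Prod.ext e (S₁.perm_injective _ h2)
  · rw [mul_assoc, S₂.spec, ← mul_assoc, S₁.spec, mul_assoc]

/-- A system from representatives covering the products. -/
def mkSystem (rep : ι → GL (Fin 2) ℝ) (det_pos : ∀ i, 0 < (rep i).det.val)
    (cover : ∀ (γ : Γ) i, ∃ (c : Γ') (j : ι),
      rep i * mapGL ℝ (γ : SL(2, ℤ)) = mapGL ℝ (c : SL(2, ℤ)) * rep j)
    (unique : ∀ i j (γ : Γ'), rep i = mapGL ℝ (γ : SL(2, ℤ)) * rep j → i = j) :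
    HeckeSystem Γ' Γ ι where
  rep := rep
  det_pos := det_pos
  perm γ i := (cover γ i).choose_spec.choose
  cocycle γ i := (cover γ i).choose
  spec γ i := (cover γ i).choose_spec.choose_spec
  unique := unique

/-- A system with a single representative. -/
def unitSystem (a : GL (Fin 2) ℝ) (ha : 0 < a.det.val)
    (h : ∀ γ : Γ, ∃ c : Γ', a * mapGL ℝ (γ : SL(2, ℤ)) = mapGL ℝ (c : SL(2, ℤ)) * a) :
    HeckeSystem Γ' Γ Unit :=
  mkSystem (fun _ => a) (fun _ => ha) (fun γ i => (h γ).imp fun _ hc => ⟨i, hc⟩)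
    fun _ _ _ _ => rfl

theorem unitSystem_apply {a : GL (Fin 2) ℝ} {ha : 0 < a.det.val}
    {h : ∀ γ : Γ, ∃ c : Γ', a * mapGL ℝ (γ : SL(2, ℤ)) = mapGL ℝ (c : SL(2, ℤ)) * a}
    {A : Type*} [AddCommGroup A] (φ : Additive Γ' →+ A) {γ : Γ} {c : Γ'}
    (hc : a * mapGL ℝ (γ : SL(2, ℤ)) = mapGL ℝ (c : SL(2, ℤ)) * a) :
    (unitSystem a ha h).apply φ (Additive.ofMul γ) = φ (Additive.ofMul c) := by
  rw [HeckeSystem.apply_apply, Fintype.sum_unique,
    ((unitSystem a ha h).eq_of_spec (i := default) (j := default) hc).2]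

end Transfer

end Fermat.Agent.LevelRaising
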