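import Fermat.Agent.LevelRaising.AwaySL2
import Fermat.Agent.LevelRaising.GoodPrimes

/-!
# The unit twist

Modulo conjugates of `upr (M t)`, for a level `M` with `TwistLevel q M`, the principal congruence
subgroup of `SL(2, ℤ[1/q])` commutes with `lwr (2 t)` (Serre's argument,
`commute_cls_lwr_two_mul`).
-/

namespace Fermat.Agent.LevelRaising

open scoped MatrixGroups

variable {q M : ℕ}

/-! ## The two subgroups -/

/-- principal congruence subgroup of level `M` in `SL(2, ℤ[1/q])` -/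
noncomputable def congSub (h : q.Coprime M) : Subgroup SL(2, Zq q) := (slMap (red h)).ker

theorem mem_congSub {h : q.Coprime M} {g : SL(2, Zq q)} :
    g ∈ congSub h ↔ (M : Zq q) ∣ g 0 0 - 1 ∧ (M : Zq q) ∣ g 0 1 ∧
      (M : Zq q) ∣ g 1 0 ∧ (M : Zq q) ∣ g 1 1 - 1 := by
  simp [congSub, MonoidHom.mem_ker, slMap_eq_one_iff, ← red_eq_zero_iff (h := h), sub_eq_zero]

/-- normal closure of the level `M` translations -/
def elemSub (q M : ℕ) : Subgroup SL(2, Zq q) :=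
  Subgroup.normalClosure (Set.range fun t : Zq q => upr ((M : Zq q) * t))

instance : (elemSub q M).Normal := Subgroup.normalClosure_normal

theorem upr_mem_elemSub {s : Zq q} (h : (M : Zq q) ∣ s) : upr s ∈ elemSub q M := by
  obtain ⟨t, rfl⟩ := h
  exact Subgroup.subset_normalClosure ⟨t, rfl⟩

theorem lwr_mem_elemSub {s : Zq q} (h : (M : Zq q) ∣ s) : lwr s ∈ elemSub q M := by
  have := (inferInstance : (elemSub q M).Normal).conj_mem _ (upr_mem_elemSub h.neg_right) rot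
  rwa [rot_mul_upr_mul_inv, neg_neg] at this

theorem elemSub_le_congSub (h : q.Coprime M) : elemSub q M ≤ congSub h := by
  have : (congSub h).Normal := MonoidHom.normal_ker _
  refine Subgroup.normalClosure_le_normal ?_
  rintro _ ⟨t, rfl⟩
  simp [congSub, MonoidHom.mem_ker]

/-- class modulo `elemSub` -/
abbrev cls (M : ℕ) (g : SL(2, Zq q)) : SL(2, Zq q) ⧸ elemSub q M := QuotientGroup.mk g

theorem cls_eq_one {g : SL(2, Zq q)} (h : g ∈ elemSub q M) : cls M g = 1 :=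
  (QuotientGroup.eq_one_iff g).mpr h

/-! ## The twist -/

/-- the matrix of conjugation by `diag(u, 1)` -/
def twistFun {R : Type*} [CommRing R] (u : Rˣ) (g : SL(2, R)) : SL(2, R) :=
  ⟨!![g 0 0, (u : R) * g 0 1; ((u⁻¹ : Rˣ) : R) * g 1 0, g 1 1], by
    rw [Matrix.det_fin_two_of]
    linear_combination det_eq g - (g 0 1 * g 1 0) * u.mul_inv⟩

theorem twistFun_apply {R : Type*} [CommRing R] (u : Rˣ) (g : SL(2, R)) :
    twistFun u g 0 0 = g 0 0 ∧ twistFun u g 0 1 = (u : R) * g 0 1 ∧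
      twistFun u g 1 0 = ((u⁻¹ : Rˣ) : R) * g 1 0 ∧ twistFun u g 1 1 = g 1 1 :=
  ⟨rfl, rfl, rfl, rfl⟩

/-- conjugation by `diag(u, 1)` -/
def twist {R : Type*} [CommRing R] (u : Rˣ) : SL(2, R) →* SL(2, R) where
  toFun := twistFun u
  map_one' := by apply sl_ext <;> simp [twistFun_apply]
  map_mul' g h := by
    apply sl_ext <;> simp [twistFun_apply, mul_apply00, mul_apply01, mul_apply10, mul_apply11]
    · linear_combination - (g 0 1 * h 1 0) * u.mul_inv
    · ring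
    · ring
    · linear_combination - (g 1 0 * h 0 1) * u.mul_inv

@[simp] theorem twist_apply_00 {R : Type*} [CommRing R] (u : Rˣ) (g : SL(2, R)) :
    twist u g 0 0 = g 0 0 := rfl
@[simp] theorem twist_apply_01 {R : Type*} [CommRing R] (u : Rˣ) (g : SL(2, R)) :
    twist u g 0 1 = (u : R) * g 0 1 := rfl
@[simp] theorem twist_apply_10 {R : Type*} [CommRing R] (u : Rˣ) (g : SL(2, R)) :
    twist u g 1 0 = ((u⁻¹ : Rˣ) : R) * g 1 0 := rfl
@[simp] theorem twist_apply_11 {R : Type*} [CommRing R] (u : Rˣ) (g : SL(2, R)) :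
    twist u g 1 1 = g 1 1 := rfl

theorem twist_lwr {R : Type*} [CommRing R] (u : Rˣ) (s : R) :
    twist u (lwr s) = lwr (((u⁻¹ : Rˣ) : R) * s) := by
  apply sl_ext <;> simp

theorem twist_mem_congSub {h : q.Coprime M} (u : (Zq q)ˣ) {g : SL(2, Zq q)}
    (hg : g ∈ congSub h) : twist u g ∈ congSub h := by
  rw [mem_congSub] at hg ⊢
  simp [hg.1, hg.2.1.mul_left, hg.2.2.1.mul_left, hg.2.2.2]

theorem cls_twist_aux {h : q.Coprime M} (u : (Zq q)ˣ) {g : SL(2, Zq q)} (hg : g ∈ congSub h)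
    (hu : g 0 0 ∣ (u : Zq q) - 1) : cls M (twist u g) = cls M g := by
  obtain ⟨z, hz⟩ := hu
  have hgg := mem_congSub.mp hg
  have hzb : (M : Zq q) ∣ z * g 0 1 := hgg.2.1.mul_left z
  set g' := g * upr (z * g 0 1) with hg'
  have hg'mem : g' ∈ congSub h :=
    mul_mem hg (elemSub_le_congSub h (upr_mem_elemSub hzb))
  have h0 : twist u g 0 0 = g' 0 0 := by simp [hg', mul_apply00]
  have h1 : twist u g 0 1 = g' 0 1 := by
    simp [hg', mul_apply01]; linear_combination (g 0 1) * hz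
  have ht := mem_congSub.mp (twist_mem_congSub u hg)
  have hg'' := mem_congSub.mp hg'mem
  have e := eq_lwr_mul_of_row_eq h0 h1
  set x := twist u g 1 0 * g' 1 1 - twist u g 1 1 * g' 1 0
  have hx : (M : Zq q) ∣ x := dvd_sub (ht.2.2.1.mul_right _) (hg''.2.2.1.mul_left _)
  rw [e, hg', cls, QuotientGroup.mk_mul, QuotientGroup.mk_mul]
  change cls M (lwr x) * (cls M g * cls M (upr (z * g 0 1))) = _
  rw [cls_eq_one (lwr_mem_elemSub hx), cls_eq_one (upr_mem_elemSub hzb), one_mul, mul_one]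

theorem cls_twist {h : q.Coprime M} (u : (Zq q)ˣ) {g : SL(2, Zq q)} (hg : g ∈ congSub h)
    (t : Zq q) (hu : g 0 0 + g 0 1 * M * t ∣ (u : Zq q) - 1) :
    cls M (twist u g) = cls M g := by
  have hM : (M : Zq q) ∣ M * t := dvd_mul_right _ _
  have hmem : g * lwr ((M : Zq q) * t) ∈ congSub h :=
    mul_mem hg (elemSub_le_congSub h (lwr_mem_elemSub hM))
  have h' := cls_twist_aux u hmem (by simpa [mul_apply00, mul_assoc] using hu)
  rw [map_mul, twist_lwr] at h'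
  simp only [cls, QuotientGroup.mk_mul] at h'
  change cls M _ * cls M _ = cls M _ * cls M _ at h'
  rwa [cls_eq_one (lwr_mem_elemSub (hM.mul_left _)), cls_eq_one (lwr_mem_elemSub hM),
    mul_one, mul_one] at h'

/-! ## The stabiliser and Serre's argument -/

/-- the `s` for which `lwr s` commutes with `g` modulo `elemSub` -/
def lwrStab (M : ℕ) (g : SL(2, Zq q)) : AddSubgroup (Zq q) where
  carrier := {s | Commute (cls M (lwr s)) (cls M g)}
  zero_mem' := by simp [cls]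
  add_mem' {s t} hs ht := by
    simp only [Set.mem_ofPred_eq, cls, lwr_add, QuotientGroup.mk_mul]
    exact Commute.mul_left hs ht
  neg_mem' {s} hs := by
    simp only [Set.mem_ofPred_eq, cls, lwr_neg, QuotientGroup.mk_inv]
    exact Commute.inv_left hs

theorem mem_lwrStab_of_dvd {g : SL(2, Zq q)} {s : Zq q} (h : (M : Zq q) ∣ s) :
    s ∈ lwrStab M g := by
  change Commute (cls M (lwr s)) (cls M g)
  rw [cls_eq_one (lwr_mem_elemSub h)]
  exact Commute.one_left _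

theorem sub_mem_lwrStab {h : q.Coprime M} (u : (Zq q)ˣ) {g : SL(2, Zq q)} (s : Zq q)
    (hg : g ∈ congSub h) (t₁ t₂ : Zq q) (h₁ : g 0 0 + g 0 1 * M * t₁ ∣ (u : Zq q) - 1)
    (h₂ : (lwr s * g * (lwr s)⁻¹) 0 0 + (lwr s * g * (lwr s)⁻¹) 0 1 * M * t₂ ∣
      (u : Zq q) - 1) :
    s - ((u⁻¹ : (Zq q)ˣ) : Zq q) * s ∈ lwrStab M g := by
  have hh : lwr s * g * (lwr s)⁻¹ ∈ congSub h := (MonoidHom.normal_ker _).conj_mem g hg _
  have e := cls_twist u hh t₂ h₂
  rw [map_mul, map_mul, map_inv, twist_lwr] at e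
  simp only [cls, QuotientGroup.mk_mul, QuotientGroup.mk_inv] at e
  rw [show (QuotientGroup.mk (twist u g) : SL(2, Zq q) ⧸ elemSub q M) = cls M g from
    cls_twist u hg t₁ h₁] at e
  set s' := ((u⁻¹ : (Zq q)ˣ) : Zq q) * s
  change Commute (cls M (lwr (s - s'))) (cls M g)
  simp only [sub_eq_neg_add, lwr_add, lwr_neg, cls, QuotientGroup.mk_mul, QuotientGroup.mk_inv,
    Commute, SemiconjBy]
  rw [mul_assoc, inv_mul_eq_iff_eq_mul, ← mul_assoc, ← mul_assoc, ← eq_mul_inv_iff_mul_eq]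
  simp only [cls] at e ⊢
  rw [e]
  simp [mul_assoc]

theorem exists_ordCompl (hq : q.Prime) {b : Zq q} (hb : b ≠ 0) :
    ∃ (n : ℕ) (w : (Zq q)ˣ), n ≠ 0 ∧ q.Coprime n ∧ b * w = n := by
  obtain ⟨k, i, hk⟩ := exists_mul_pow_eq_intCast b
  have hk0 : k ≠ 0 := by
    rintro rfl
    rw [Int.cast_zero, mul_eq_zero] at hk
    rcases hk with hk | hk
    · exact hb hk
    · have : Nontrivial (Zq q) := ⟨b, 0, hb⟩
      exact (isUnit_natCast_self.pow i).ne_zero hk
  have hN : k.natAbs ≠ 0 := Int.natAbs_ne_zero.mpr hk0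
  refine ⟨ordCompl[q] k.natAbs,
    qUnit q ^ i * (qUnit q ^ k.natAbs.factorization q)⁻¹ *
      (if 0 ≤ k then 1 else -1), (Nat.ordCompl_pos q hN).ne',
    Nat.coprime_ordCompl hq hN, ?_⟩
  have e : ((k.natAbs : ℕ) : Zq q) =
      (q : Zq q) ^ k.natAbs.factorization q * (ordCompl[q] k.natAbs : ℕ) := by
    conv_lhs => rw [← Nat.ordProj_mul_ordCompl_eq_self k.natAbs q]
    push_cast
    ring
  have hs : (k : Zq q) * ((if 0 ≤ k then 1 else -1 : (Zq q)ˣ) : Zq q) = (k.natAbs : ℕ) := by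
    split_ifs with h
    · conv_lhs => rw [← Int.natAbs_of_nonneg h]
      simp
    · have : k = -(k.natAbs : ℤ) := by omega
      conv_lhs => rw [this]
      simp
  simp only [Units.val_mul, Units.val_pow_eq_pow_val, qUnit_val]
  calc b * ((q : Zq q) ^ i * ↑(qUnit q ^ k.natAbs.factorization q)⁻¹ *
        ↑(if 0 ≤ k then 1 else -1 : (Zq q)ˣ))
      = (k : Zq q) * ↑(if 0 ≤ k then 1 else -1 : (Zq q)ˣ) *
          ↑(qUnit q ^ k.natAbs.factorization q)⁻¹ := by rw [← hk]; ring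
    _ = _ := by
      rw [hs, e, Units.mul_inv_eq_iff_eq_mul, Units.val_pow_eq_pow_val, qUnit_val]
      ring

/-- a representative of the first entry which is a product of good primes -/
theorem exists_rep (hq : q.Prime) (hM : M ≠ 0) {h : q.Coprime M} {J : ℕ}
    (find : ∀ n c : ℕ, n ≠ 0 → M ∣ n → M * M ∣ n → q.Coprime n → c.Coprime n →
      (c : ZMod M) = 1 →
      ∃ S : Finset ℕ, (∀ π ∈ S, GoodPrime q J π) ∧ (∏ π ∈ S, π) ≡ c [MOD n])
    {g : SL(2, Zq q)} (hg : g ∈ congSub h) :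
    ∃ (t : Zq q) (S : Finset ℕ), (∀ π ∈ S, GoodPrime q J π) ∧
      ∀ x : ℕ, (∏ π ∈ S, π) ∣ x → g 0 0 + g 0 1 * M * t ∣ (x : Zq q) := by
  have hdet := det_eq g
  have hgg := mem_congSub.mp hg
  -- If the entry vanishes the first one is a unit.
  by_cases hb : g 0 1 = 0
  · refine ⟨0, ∅, by simp, fun x _ => ?_⟩
    rw [hb, zero_mul, sub_zero] at hdet
    rw [hb, zero_mul, zero_mul, add_zero]
    exact (IsUnit.of_mul_eq_one _ hdet).dvd
  obtain ⟨n₀, w, hn₀, hqn₀, hw⟩ := exists_ordCompl hq hb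
  set n := M * n₀ with hn
  have hn0 : n ≠ 0 := mul_ne_zero hM hn₀
  have hqn : q.Coprime n := h.mul_right hqn₀
  have hMn₀ : M ∣ n₀ := by
    rw [← ZMod.natCast_eq_zero_iff, ← map_natCast (red h) n₀, ← hw, map_mul,
      (red_eq_zero_iff _).mpr hgg.2.1, zero_mul]
  have : NeZero n := ⟨hn0⟩
  -- Otherwise the first entry is, modulo `n = M n₀`, a natural number `c ≡ 1 (mod M)`.
  obtain ⟨c, hc⟩ := exists_int_sub_mem (g 0 0) hqn
  have hbM : red hqn (g 0 1 * g 1 0) = 0 := by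
    rw [red_eq_zero_iff]
    obtain ⟨y, hy⟩ := hgg.2.2.1
    refine ⟨((w⁻¹ : (Zq q)ˣ) : Zq q) * y, ?_⟩
    rw [hy, hn, Nat.cast_mul, ← hw]
    linear_combination - (g 0 1 * (M : Zq q) * y) * w.mul_inv
  have hcu : IsUnit (c : ZMod n) := by
    rw [← red_eq_zero_iff (h := hqn), map_sub, sub_eq_zero, map_natCast] at hc
    rw [← hc]
    refine IsUnit.of_mul_eq_one (red hqn (g 1 1)) ?_
    rw [← map_mul, show g 0 0 * g 1 1 = 1 + g 0 1 * g 1 0 by linear_combination hdet,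
      map_add, hbM, map_one, add_zero]
  have hc1 : (c : ZMod M) = 1 := by
    have h1 : (M : Zq q) ∣ (c : Zq q) - 1 := by
      have := dvd_sub hgg.1 ((Nat.cast_dvd_cast (Dvd.intro n₀ rfl)).trans hc)
      simpa using this
    rw [← red_eq_zero_iff (h := h), map_sub, map_natCast, map_one, sub_eq_zero] at h1
    exact h1
  -- Good primes with product in the class of `c`.
  obtain ⟨S, hS, hSc⟩ := find n c hn0 (Dvd.intro n₀ rfl) (mul_dvd_mul_left M hMn₀) hqn
    ((ZMod.isUnit_iff_coprime c n).mp hcu) hc1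
  have hP : (n : Zq q) ∣ ((∏ π ∈ S, π : ℕ) : Zq q) - g 0 0 := by
    have e : (n : Zq q) ∣ ((∏ π ∈ S, π : ℕ) : Zq q) - (c : Zq q) := by
      rw [← red_eq_zero_iff (h := hqn), map_sub, map_natCast, map_natCast, sub_eq_zero,
        ZMod.natCast_eq_natCast_iff]
      exact hSc
    have := dvd_sub e hc
    simpa using this
  obtain ⟨y, hy⟩ := hP
  refine ⟨(w : Zq q) * y, S, hS, fun x hx => ?_⟩
  have e : g 0 0 + g 0 1 * M * ((w : Zq q) * y) = ((∏ π ∈ S, π : ℕ) : Zq q) := by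
    rw [hn, Nat.cast_mul, ← hw] at hy
    linear_combination -hy
  rw [e]
  exact Nat.cast_dvd_cast hx

theorem natCast_pow_mem_lwrStab (hq : q.Prime) (hM : M ≠ 0) {h : q.Coprime M} {J : ℕ}
    (find : ∀ n c : ℕ, n ≠ 0 → M ∣ n → M * M ∣ n → q.Coprime n → c.Coprime n →
      (c : ZMod M) = 1 →
      ∃ S : Finset ℕ, (∀ π ∈ S, GoodPrime q J π) ∧ (∏ π ∈ S, π) ≡ c [MOD n])
    {g : SL(2, Zq q)} (hg : g ∈ congSub h) :
    ∃ O : ℕ, Odd O ∧ ∀ y : ℤ, (y : Zq q) * ((q ^ (2 ^ (J - 1) * O) + 1 : ℕ) : Zq q) ∈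
      lwrStab M g := by
  obtain ⟨t₁, S₁, hS₁, h₁⟩ := exists_rep hq hM find hg
  obtain ⟨t₂, S₂, hS₂, h₂⟩ := exists_rep hq hM find
    (g := lwr 1 * g * (lwr 1)⁻¹) ((MonoidHom.normal_ker _).conj_mem g hg _)
  set O := oddExp J S₁ * oddExp J S₂
  have hO : Odd O := (odd_oddExp hS₁).mul (odd_oddExp hS₂)
  refine ⟨O, hO, fun y => ?_⟩
  set m := 2 ^ (J - 1) * O
  set u : (Zq q)ˣ := -(qUnit q ^ m) with hu
  have hu1 : (u : Zq q) - 1 = -((q ^ m + 1 : ℕ) : Zq q) := by simp [hu]; ring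
  have hmem := sub_mem_lwrStab u 1 hg t₁ t₂
    (by rw [hu1]; exact Dvd.dvd.neg_right (h₁ _ (prod_dvd_pow_add_one hS₁ hO (dvd_mul_right _ _))))
    (by rw [hu1]; exact Dvd.dvd.neg_right (h₂ _ (prod_dvd_pow_add_one hS₂ hO (dvd_mul_left _ _))))
  have e : (y : Zq q) * ((q ^ m + 1 : ℕ) : Zq q) =
      (y * (q : ℤ) ^ m) • ((1 : Zq q) - ((u⁻¹ : (Zq q)ˣ) : Zq q) * 1) := by
    have hval : (u : Zq q) = -(q : Zq q) ^ m := by simp [hu]
    rw [zsmul_eq_mul]
    push_cast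
    linear_combination - (y : Zq q) * u.mul_inv + (y : Zq q) * ((u⁻¹ : (Zq q)ˣ) : Zq q) * hval
  rw [e]
  exact zsmul_mem hmem _

/-- Admissible levels for the twist argument. -/
def TwistLevel (q M : ℕ) : Prop :=
  (q = 2 ∧ Odd M) ∨
    (q ≠ 2 ∧ ∃ J, 2 ≤ J ∧ 2 ^ J ∣ M ∧ ∀ r, r.Prime → r ∣ M → r ≠ 2 → ¬ 2 ^ J ∣ r - 1)

theorem two_mem_lwrStab (hq : q.Prime) (hM : M ≠ 0) {h : q.Coprime M} (hlev : TwistLevel q M)
    {g : SL(2, Zq q)} (hg : g ∈ congSub h) : (2 : Zq q) ∈ lwrStab M g := by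
  rcases hlev with ⟨rfl, -⟩ | ⟨hq2, J, hJ, h2M, hr⟩
  · have find : ∀ J, (J = 1 ∨ J = 2) → ∀ n c : ℕ, n ≠ 0 → M ∣ n → M * M ∣ n →
        Nat.Coprime 2 n → c.Coprime n → (c : ZMod M) = 1 →
        ∃ S : Finset ℕ, (∀ π ∈ S, GoodPrime 2 J π) ∧ (∏ π ∈ S, π) ≡ c [MOD n] :=
      fun J hJ n c _ _ _ hn hc _ =>
        exists_goodPrime_finset_two hJ (Nat.coprime_two_left.mp hn) hc
    -- For `q = 2` two exponents give coprime multipliers, so `1` is in the stabiliser.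
    obtain ⟨O₁, hO₁, k₁⟩ := natCast_pow_mem_lwrStab hq hM (find 1 (Or.inl rfl)) hg
    obtain ⟨O₂, hO₂, k₂⟩ := natCast_pow_mem_lwrStab hq hM (find 2 (Or.inr rfl)) hg
    have hc := coprime_two_pow_add_one (b := O₂) hO₁
    have e := Nat.gcd_eq_gcd_ab (2 ^ O₁ + 1) (2 ^ (2 * O₂) + 1)
    rw [hc] at e
    have e' := congrArg (fun z : ℤ => (z : Zq 2)) e
    push_cast at e'
    have h1 : (1 : Zq 2) ∈ lwrStab M g := by
      rw [e']
      have a := add_mem (k₁ (Nat.gcdA (2 ^ O₁ + 1) (2 ^ (2 * O₂) + 1)))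
        (k₂ (Nat.gcdB (2 ^ O₁ + 1) (2 ^ (2 * O₂) + 1)))
      simp only [Nat.sub_self, pow_zero, one_mul, show 2 - 1 = 1 from rfl, pow_one,
        Nat.cast_add, Nat.cast_pow, Nat.cast_one] at a
      push_cast at a
      convert a using 1
      ring
    simpa [one_add_one_eq_two] using add_mem h1 h1
  · have find : ∀ n c : ℕ, n ≠ 0 → M ∣ n → M * M ∣ n → q.Coprime n → c.Coprime n →
        (c : ZMod M) = 1 →
        ∃ S : Finset ℕ, (∀ π ∈ S, GoodPrime q J π) ∧ (∏ π ∈ S, π) ≡ c [MOD n] := by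
      intro n c hn _ hMMn hqn hc hc1
      refine exists_goodPrime_finset_odd hq hq2 hJ hn ?_ hqn hc ?_
      · refine dvd_trans ?_ hMMn
        rw [pow_succ]
        exact mul_dvd_mul h2M (dvd_trans (dvd_pow_self 2 (by omega)) h2M)
      · have h1 : c ≡ 1 [MOD M] := (ZMod.natCast_eq_natCast_iff _ _ _).mp (by simpa using hc1)
        exact Eq.trans (h1.of_dvd h2M) (Nat.mod_eq_of_lt (Nat.one_lt_two_pow (by omega)))
    obtain ⟨O, hO, k⟩ := natCast_pow_mem_lwrStab hq hM find hg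
    -- For odd `q` the multiplier and `M` have greatest common divisor dividing two.
    obtain ⟨d, hd⟩ := gcd_dvd_two (M := M) (O := O) hJ (hq.odd_of_ne_two hq2) hr
    have e := Nat.gcd_eq_gcd_ab (q ^ (2 ^ (J - 1) * O) + 1) M
    set x := q ^ (2 ^ (J - 1) * O) + 1
    have e' := congrArg (fun z : ℤ => (z : Zq q)) e
    push_cast at e'
    have hd' : (2 : Zq q) = (Nat.gcd x M : Zq q) * d := by
      rw [← Nat.cast_mul, ← hd]; norm_num
    have : (2 : Zq q) = ((Nat.gcdA x M * d : ℤ) : Zq q) * (x : Zq q) +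
        (M : Zq q) * ((Nat.gcdB x M * d : ℤ) : Zq q) := by
      rw [hd', e']
      push_cast
      ring
    rw [this]
    exact add_mem (k _) (mem_lwrStab_of_dvd (dvd_mul_right _ _))

/-- Serre's twist argument: `lwr (2 t)` is central on the level `M` classes. -/
theorem commute_cls_lwr_two_mul (hq : q.Prime) {h : q.Coprime M} (hlev : TwistLevel q M)
    (hM : M ≠ 0) {g : SL(2, Zq q)} (hg : g ∈ congSub h) (t : Zq q) :
    Commute (cls M (lwr (2 * t))) (cls M g) := by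
  have : NeZero M := ⟨hM⟩
  obtain ⟨k, hk⟩ := exists_int_sub_mem t h
  have e : 2 * t = (k : ℤ) • (2 : Zq q) + 2 * (t - k) := by
    rw [zsmul_eq_mul]; push_cast; ring
  rw [e]
  exact add_mem (s := lwrStab M g) (zsmul_mem (two_mem_lwrStab hq hM hlev hg) _)
    (mem_lwrStab_of_dvd (hk.mul_left 2))

end Fermat.Agent.LevelRaising
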